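import Fermat.Agent.S51.KeyIdentity

/-!
# S51, part C: from the rational torsion data to the four non-cuspidal points of `X₀(15)`

Input: a short Weierstrass curve `y² = x³ + A x + B` over `ℚ`, a rational root `x₀` of its
3-division polynomial and a rational quadratic `x² + u x + v` cutting out the `x`-coordinates
of a rational subgroup of order 5.  Output: the `X₀(3)`-Hauptmodul
`t = -(4A³+27B²)/(x₀³+Ax₀+B)²` takes one of the four values `-2, -32, -729/2, -729/32`.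

The modular units `X = -4 (u²-4v)/(x₀²+ux₀+v)` and
`z = -9 (u²-4v)² (x₀³+Ax₀+B)² / ((x₀²+ux₀+v)² (4A³+27B²))` satisfy
`X (X-36) z² - 180 X z - 324 (X+4) = 0`, a model of `X₀(15)`, and `X` is the `x`-coordinate
of the Weierstrass model `η² = X (X+9) (X-16)` (Cremona 15a1), whose rational points are
determined from the curve 15a2 `y² = x (x-1) (x-81)` by a 2-isogeny.
-/

set_option autoImplicit false

namespace Fermat.Agent.S51

/-- The rational points of `η² = X (X+9) (X-16)` (15a1), deduced from those of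
`y² = x (x-1) (x-81)` (15a2) through the 2-isogeny with kernel `(16, 0)`. -/
theorem points_15a1 (hD : ∀ x y : ℚ, y ^ 2 = x * (x - 1) * (x - 81) → y = 0)
    (X η : ℚ) (h : η ^ 2 = X * (X + 9) * (X - 16)) : η = 0 ∨ X = 36 ∨ X = -4 := by
  obtain ⟨w, rfl⟩ : ∃ w, X = w + 16 := ⟨X - 16, by ring⟩
  by_cases hw : w = 0
  · left
    have h0 : η ^ 2 = 0 := by rw [h, hw]; ring
    exact pow_eq_zero_iff (two_ne_zero) |>.mp h0
  · have hη : η ^ 2 = (w + 16) * (w + 25) * w := by rw [h]; ring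
    have key : (η * (400 - w ^ 2) / w ^ 2) ^ 2 =
        (η ^ 2 / w ^ 2) * (η ^ 2 / w ^ 2 - 1) * (η ^ 2 / w ^ 2 - 81) := by
      have e1 : η ^ 2 / w ^ 2 = (w + 16) * (w + 25) / w := by
        rw [hη]; field_simp
      have e2 : (η * (400 - w ^ 2) / w ^ 2) ^ 2 =
          (η ^ 2 / w ^ 2) * ((400 - w ^ 2) ^ 2 / w ^ 2) := by
        field_simp
      rw [e2, e1]
      field_simp
      ring
    have hV := hD _ _ key
    have hw2 : w ^ 2 ≠ 0 := pow_ne_zero 2 hw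
    rw [div_eq_zero_iff] at hV
    rcases hV with hV | hV
    · rcases mul_eq_zero.mp hV with h1 | h1
      · exact Or.inl h1
      · right
        have h2 : (w - 20) * (w + 20) = 0 := by linear_combination -h1
        rcases mul_eq_zero.mp h2 with h3 | h3
        · left; linarith
        · right; linarith
    · exact absurd hV hw2

/-- The `j`-invariant relation for the 3-isogeny Hauptmodul (polynomial form). -/
theorem jrel_aux (A B x : ℚ) (h1 : 3 * x ^ 4 + 6 * A * x ^ 2 + 12 * B * x - A ^ 2 = 0) :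
    -6912 * A ^ 3 * (x ^ 3 + A * x + B) ^ 6 =
      (27 * (x ^ 3 + A * x + B) ^ 2 - (4 * A ^ 3 + 27 * B ^ 2)) *
        (3 * (x ^ 3 + A * x + B) ^ 2 - (4 * A ^ 3 + 27 * B ^ 2)) ^ 3 := by
  linear_combination (256*A^10 - 768*A^9*x^2 - 1536*A^8*B*x - 4128*A^8*x^4 + 4608*A^7*B^2 - 5760*A^7*B*x^3 - 8208*A^7*x^6 - 11520*A^6*B^2*x^2 - 13536*A^6*B*x^5 - 11655*A^6*x^8 - 20736*A^5*B^3*x - 49248*A^5*B^2*x^4 - 22680*A^5*B*x^7 - 13122*A^5*x^10 + 27648*A^4*B^4 - 27648*A^4*B^3*x^3 - 46656*A^4*B^2*x^6 - 25164*A^4*B*x^9 - 11205*A^4*x^12 + 10368*A^3*B^4*x^2 + 32400*A^3*B^3*x^5 - 20736*A^3*B*x^11 - 7452*A^3*x^14 - 41472*A^2*B^5*x - 58320*A^2*B^4*x^4 + 76464*A^2*B^3*x^7 + 24624*A^2*B^2*x^10 - 13608*A^2*B*x^13 - 3969*A^2*x^16 + 62208*A*B^6 - 77760*A*B^5*x^3 - 69984*A*B^4*x^6 + 50544*A*B^3*x^9 + 15552*A*B^2*x^12 - 5832*A*B*x^15 - 1458*A*x^18 + 62208*B^6*x^2 - 31104*B^5*x^5 - 27216*B^4*x^8 + 11664*B^3*x^11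 + 3888*B^2*x^14 - 972*B*x^17 - 243*x^20) * h1

/-- Part C: the Hauptmodul `t = -(4A³+27B²)/(x₀³+Ax₀+B)²` of `X₀(3)` takes one of four values. -/
theorem alg_core (hD : ∀ x y : ℚ, y ^ 2 = x * (x - 1) * (x - 81) → y = 0)
    (A B x₀ u v : ℚ) (hΔ : 4 * A ^ 3 + 27 * B ^ 2 ≠ 0)
    (h1 : 3 * x₀ ^ 4 + 6 * A * x₀ ^ 2 + 12 * B * x₀ - A ^ 2 = 0)
    (h2 : -u ^ 3 + 6 * u * v + 2 * A * u - 4 * B = 0)
    (h3 : A ^ 2 - 2 * A * v + 5 * v ^ 2 - u ^ 2 * v + 4 * u * B = 0)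
    (h4 : u ^ 2 - 4 * v ≠ 0) (h5 : x₀ ^ 2 + u * x₀ + v ≠ 0) :
    ∃ t : ℚ, (t = -2 ∨ t = -32 ∨ t = -729 / 2 ∨ t = -729 / 32) ∧
      1728 * (4 * A ^ 3) * t = (4 * A ^ 3 + 27 * B ^ 2) * ((t + 27) * (t + 3) ^ 3) := by
  have hB : B = (-u ^ 3 + 6 * u * v + 2 * A * u) / 4 := by linarith
  have hjr := jrel_aux A B x₀ h1
  -- `Y0 ≠ 0`
  have hY0ne : x₀ ^ 3 + A * x₀ + B ≠ 0 := by
    intro h0
    apply hΔ
    have e : 4 * (4 * A ^ 3 + 27 * B ^ 2) =
        (12 * x₀ ^ 2 + 16 * A) * (4 * x₀ * (x₀ ^ 3 + A * x₀ + B)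
          - (3 * x₀ ^ 4 + 6 * A * x₀ ^ 2 + 12 * B * x₀ - A ^ 2))
        - (3 * x₀ ^ 3 - 5 * A * x₀ - 27 * B) * (4 * (x₀ ^ 3 + A * x₀ + B)) := by ring
    rw [h0, h1] at e
    linarith
  have key : (u ^ 2 - 4 * v) ^ 5 * ((u ^ 2 - 4 * v) + 9 * (x₀ ^ 2 + u * x₀ + v))
        * (x₀ ^ 3 + A * x₀ + B) ^ 4
      - 5 * (u ^ 2 - 4 * v) ^ 3 * (x₀ ^ 2 + u * x₀ + v) ^ 3 * (x₀ ^ 3 + A * x₀ + B) ^ 2
        * (4 * A ^ 3 + 27 * B ^ 2)
      - ((x₀ ^ 2 + u * x₀ + v) - (u ^ 2 - 4 * v)) * (x₀ ^ 2 + u * x₀ + v) ^ 5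
        * (4 * A ^ 3 + 27 * B ^ 2) ^ 2 = 0 := by
    subst hB
    exact key_identity_aux A x₀ u v h1 h3
  generalize hV1 : x₀ ^ 2 + u * x₀ + v = V1 at key h5
  generalize hV2 : u ^ 2 - 4 * v = V2 at key h4
  generalize hY0 : x₀ ^ 3 + A * x₀ + B = Y0 at key hY0ne hjr
  generalize hDp : 4 * A ^ 3 + 27 * B ^ 2 = Dp at key hΔ hjr ⊢
  -- the modular units
  obtain ⟨X, hX⟩ : ∃ X : ℚ, X = -4 * V2 / V1 := ⟨_, rfl⟩
  obtain ⟨z, hz⟩ : ∃ z : ℚ, z = -9 * V2 ^ 2 * Y0 ^ 2 / (V1 ^ 2 * Dp) := ⟨_, rfl⟩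
  have hXne : X ≠ 0 := by
    rw [hX]; exact div_ne_zero (mul_ne_zero (by norm_num) h4) h5
  have hzne : z ≠ 0 := by
    rw [hz]
    exact div_ne_zero (mul_ne_zero (mul_ne_zero (by norm_num) (pow_ne_zero 2 h4))
      (pow_ne_zero 2 hY0ne)) (mul_ne_zero (pow_ne_zero 2 h5) hΔ)
  have hKEY : X * (X - 36) * z ^ 2 - 180 * X * z - 324 * (X + 4) = 0 := by
    rw [hX, hz]
    field_simp
    linear_combination (1296 : ℚ) * key
  have hη : (X * ((X - 36) * z - 90) / 18) ^ 2 = X * (X + 9) * (X - 16) := by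
    linear_combination (X * (X - 36) / 324) * hKEY
  -- the Hauptmodul
  have ht : 9 * X ^ 2 / (16 * z) = -Dp / Y0 ^ 2 := by
    rw [hX, hz]
    field_simp
    norm_num
  have hjt : ∀ t : ℚ, t = 9 * X ^ 2 / (16 * z) →
      1728 * (4 * A ^ 3) * t = Dp * ((t + 27) * (t + 3) ^ 3) := by
    intro t htt
    rw [htt, ht]
    have e1 : (-Dp / Y0 ^ 2 + 27) * (-Dp / Y0 ^ 2 + 3) ^ 3 = -6912 * A ^ 3 / Y0 ^ 2 := by
      have e2 : -Dp / Y0 ^ 2 + 27 = (27 * Y0 ^ 2 - Dp) / Y0 ^ 2 := by field_simp; ring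
      have e3 : -Dp / Y0 ^ 2 + 3 = (3 * Y0 ^ 2 - Dp) / Y0 ^ 2 := by field_simp; ring
      rw [e2, e3, div_pow, div_mul_div_comm, ← hjr]
      field_simp
    rw [e1]
    field_simp
    ring
  have hXz : (X = -9 ∧ z = -2) ∨ (X = 16 ∧ z = -9 / 2) ∨ (X = 36 ∧ z = -2) ∨
      (X = -4 ∧ z = -9 / 2) := by
    rcases points_15a1 hD _ _ hη with h0 | h36 | hm4
    · -- `η = 0`
      have h0' : (X - 36) * z = 90 := by
        have : X * ((X - 36) * z - 90) = 0 := by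
          have := h0
          field_simp at this
          linarith
        rcases mul_eq_zero.mp this with hx | hx
        · exact absurd hx hXne
        · linarith
      have hprod : X * (X + 9) * (X - 16) = 0 := by rw [← hη, h0]; ring
      rcases mul_eq_zero.mp hprod with hx | hx
      · rcases mul_eq_zero.mp hx with hx | hx
        · exact absurd hx hXne
        · left
          have hX9 : X = -9 := by linarith
          refine ⟨hX9, ?_⟩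
          rw [hX9] at h0'
          linarith
      · right; left
        have hX16 : X = 16 := by linarith
        refine ⟨hX16, ?_⟩
        rw [hX16] at h0'
        linarith
    · right; right; left
      refine ⟨h36, ?_⟩
      rw [h36] at hKEY
      linarith
    · right; right; right
      refine ⟨hm4, ?_⟩
      rw [hm4] at hKEY
      have : z * (2 * z + 9) = 0 := by linear_combination hKEY / 80
      rcases mul_eq_zero.mp this with hz0 | hz0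
      · exact absurd hz0 hzne
      · linarith
  refine ⟨9 * X ^ 2 / (16 * z), ?_, hjt _ rfl⟩
  rcases hXz with ⟨hx, hz'⟩ | ⟨hx, hz'⟩ | ⟨hx, hz'⟩ | ⟨hx, hz'⟩ <;> rw [hx, hz'] <;> norm_num

end Fermat.Agent.S51
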