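import Fermat.Agent.S51.DupData5

/-!
# S51, package T-abs-3: the 3-torsion of abstract duplication data

From `DupData K G` we derive:

* `DupData.psi3_eq_zero_of_three_smul`: a nonzero 3-torsion point has `ψ₃(X P) = 0`;
* `DupData.three_torsion_finite`: the 3-torsion is finite with at most 9 elements;
* `DupData.exists_three_torsion`: over an algebraically closed field there is a point of order 3.
-/

set_option autoImplicit false
set_option linter.unusedSectionVars false

namespace Fermat.Agent.S51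

namespace DupData

variable {K : Type*} [Field K] [CharZero K] {G : Type*} [AddCommGroup G] (D : DupData K G)

namespace T3

/-- the 3-division polynomial as a polynomial -/
noncomputable def psi3Poly : Polynomial K :=
  Polynomial.C 3 * Polynomial.X ^ 4 + Polynomial.C (6 * D.A) * Polynomial.X ^ 2
    + Polynomial.C (12 * D.B) * Polynomial.X - Polynomial.C (D.A ^ 2)

lemma eval_psi3Poly (ξ : K) : (psi3Poly D).eval ξ = D.psi3 ξ := by
  simp only [psi3Poly, psi3, Polynomial.eval_add, Polynomial.eval_sub, Polynomial.eval_mul,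
    Polynomial.eval_C, Polynomial.eval_pow, Polynomial.eval_X]

lemma natDegree_psi3Poly : (psi3Poly D).natDegree = 4 := by
  unfold psi3Poly
  compute_degree!

lemma psi3Poly_ne_zero : psi3Poly D ≠ 0 := by
  apply Polynomial.ne_zero_of_natDegree_gt (n := 3)
  rw [natDegree_psi3Poly]; norm_num

end T3

/-- T-abs-3 (c): a nonzero 3-torsion point has `ψ₃(X P) = 0`. -/
theorem psi3_eq_zero_of_three_smul {P : G} (hP : P ≠ 0) (h3 : 3 • P = 0) :
    D.psi3 (D.X P) = 0 :=
  T5.psi3_eq_zero_of_three_smul' D hP h3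

include D in
/-- T-abs-3 (a): the 3-torsion is finite with at most 9 elements. -/
theorem three_torsion_finite :
    Finite (Submodule.torsionBy ℤ G ((3 : ℕ) : ℤ)) ∧
      Nat.card (Submodule.torsionBy ℤ G ((3 : ℕ) : ℤ)) ≤ 9 := by
  classical
  set R : Finset K := (T3.psi3Poly D).roots.toFinset with hR
  have hRcard : R.card ≤ 4 := by
    calc R.card ≤ Multiset.card (T3.psi3Poly D).roots := Multiset.toFinset_card_le _
      _ ≤ (T3.psi3Poly D).natDegree := Polynomial.card_roots' _
      _ = 4 := T3.natDegree_psi3Poly D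
  let rep : K → Finset G := fun r =>
    if h : ∃ P : G, P ≠ 0 ∧ D.X P = r then {h.choose, -h.choose} else ∅
  have hrep : ∀ r, (rep r).card ≤ 2 := by
    intro r
    simp only [rep]
    split_ifs
    · exact Finset.card_le_two
    · simp
  let F : Finset G := insert 0 (R.biUnion rep)
  have hF : F.card ≤ 9 := by
    have h1 : F.card ≤ (R.biUnion rep).card + 1 := Finset.card_insert_le _ _
    have h2 : (R.biUnion rep).card ≤ ∑ r ∈ R, (rep r).card := Finset.card_biUnion_le
    have h3 : ∑ r ∈ R, (rep r).card ≤ ∑ _r ∈ R, 2 := Finset.sum_le_sum fun r _ => hrep r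
    have h4 : ∑ _r ∈ R, 2 = R.card * 2 := by simp
    omega
  have hsub : ((Submodule.torsionBy ℤ G ((3 : ℕ) : ℤ) : Submodule ℤ G) : Set G) ⊆ ↑F := by
    intro Q hQ
    have h3 : 3 • Q = 0 := by
      have := (Submodule.mem_torsionBy_iff _ _).1 hQ
      rwa [natCast_zsmul] at this
    by_cases hQ0 : Q = 0
    · simp [F, hQ0]
    · have hroot : D.X Q ∈ R := by
        rw [hR, Multiset.mem_toFinset, Polynomial.mem_roots (T3.psi3Poly_ne_zero D),
          Polynomial.IsRoot, T3.eval_psi3Poly]
        exact D.psi3_eq_zero_of_three_smul hQ0 h3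
      have hex : ∃ P : G, P ≠ 0 ∧ D.X P = D.X Q := ⟨Q, hQ0, rfl⟩
      have hmem : Q ∈ rep (D.X Q) := by
        simp only [rep, dif_pos hex]
        have hc := hex.choose_spec
        rcases (D.X_eq_iff Q hex.choose hQ0 hc.1).1 hc.2.symm with h | h
        · exact Finset.mem_insert.2 (Or.inl h)
        · exact Finset.mem_insert.2 (Or.inr (Finset.mem_singleton.2 h))
      exact Finset.mem_coe.2 (Finset.mem_insert_of_mem (Finset.mem_biUnion.2 ⟨_, hroot, hmem⟩))
  have hfin : ((Submodule.torsionBy ℤ G ((3 : ℕ) : ℤ) : Submodule ℤ G) : Set G).Finite :=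
    F.finite_toSet.subset hsub
  refine ⟨hfin.to_subtype, ?_⟩
  have h1 : Nat.card ((Submodule.torsionBy ℤ G ((3 : ℕ) : ℤ) : Submodule ℤ G) : Set G)
      ≤ Nat.card (↑F : Set G) := Nat.card_mono F.finite_toSet hsub
  have h2 : Nat.card (↑F : Set G) = F.card := by simp
  exact (h1.trans h2.le).trans hF

include D in
/-- T-abs-3 (b): there is a point of order 3. -/
theorem exists_three_torsion [IsAlgClosed K] : ∃ P : G, P ≠ 0 ∧ 3 • P = 0 := by
  have hdeg : (T3.psi3Poly D).degree ≠ 0 := by
    rw [Polynomial.degree_eq_natDegree (T3.psi3Poly_ne_zero D), T3.natDegree_psi3Poly]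
    norm_num
  obtain ⟨x, hx⟩ := IsAlgClosed.exists_root _ hdeg
  rw [Polynomial.IsRoot, T3.eval_psi3Poly] at hx
  obtain ⟨P, hP, rfl⟩ := D.surj x
  have hpsi := T5.psi3_eq D (D.X P)
  rw [hx] at hpsi
  -- `M(x) ≠ 0`
  have hM : T5.M D (D.X P) ≠ 0 := by
    intro hM
    rw [hM, mul_zero] at hpsi
    have hN : T5.N D (D.X P) = 0 := by linear_combination hpsi
    exact T5.not_M_N_zero D _ hM hN
  have h2 : 2 • P ≠ 0 := (T5.M_ne_zero_iff D hP).1 hM
  have hd1 := T5.dup' D hP h2
  have hXX : D.X (2 • P) = D.X P := by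
    apply mul_right_cancel₀ hM
    rw [hd1]
    linear_combination hpsi
  refine ⟨P, hP, ?_⟩
  rcases (D.X_eq_iff (2 • P) P h2 hP).1 hXX with h | h
  · exfalso
    apply hP
    have : 2 • P = P + P := two_nsmul P
    rw [this] at h
    exact add_eq_right.mp h
  · have e : 3 • P = 2 • P + P := by abel
    rw [e, h, neg_add_cancel]

end DupData

end Fermat.Agent.S51
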