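import Mathlib

/-!
# S51, part T-abs: abstract "duplication data" in short Weierstrass form

`DupData K G` packages an abelian group `G` (the points of an elliptic curve
`y² = x³ + A x + B` over `K`), an `x`-coordinate function `X : G → K` (junk value at `0`),
and the duplication formula.  All torsion facts needed for S51 (3- and 5-torsion) are
derived from these axioms by polynomial algebra (files `DupData3`, `DupData5`);
no elliptic curve appears there.
-/

set_option autoImplicit false

namespace Fermat.Agent.S51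

/-- Abstract duplication data (short Weierstrass form `y² = x³ + A x + B`). -/
structure DupData (K : Type*) [Field K] (G : Type*) [AddCommGroup G] where
  /-- the coefficient `A` -/
  A : K
  /-- the coefficient `B` -/
  B : K
  /-- the `x`-coordinate (junk value at `0`) -/
  X : G → K
  disc_ne : 4 * A ^ 3 + 27 * B ^ 2 ≠ 0
  X_eq_iff : ∀ P Q : G, P ≠ 0 → Q ≠ 0 → (X P = X Q ↔ P = Q ∨ P = -Q)
  two_tors_iff : ∀ P : G, P ≠ 0 → (2 • P = 0 ↔ X P ^ 3 + A * X P + B = 0)
  dup : ∀ P : G, P ≠ 0 → 2 • P ≠ 0 →
    X (2 • P) * (4 * (X P ^ 3 + A * X P + B)) =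
      X P ^ 4 - 2 * A * X P ^ 2 - 8 * B * X P + A ^ 2
  surj : ∀ ξ : K, ∃ P : G, P ≠ 0 ∧ X P = ξ

namespace DupData

variable {K : Type*} [Field K] {G : Type*} [AddCommGroup G] (D : DupData K G)

/-- the 3-division polynomial, evaluated -/
def psi3 (ξ : K) : K := 3 * ξ ^ 4 + 6 * D.A * ξ ^ 2 + 12 * D.B * ξ - D.A ^ 2

end DupData

end Fermat.Agent.S51
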