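import Mathlib
import Fermat.Agent.S51.DupData

/-!
# S51, package T-abs-5: the 5-torsion of abstract duplication data

From `DupData K G` (short Weierstrass `y² = x³ + A x + B`, `x`-coordinate `X`, duplication
formula) we derive, by polynomial algebra only:

* `DupData.five_torsion_facts`: basic facts about a point of exact order 5;
* `DupData.five_torsion_finite`: the 5-torsion is finite with at most 33 elements
  (in fact at most 25: `X Q` is a root of the 5-division polynomial `ψ₅`, of degree 12);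
* `DupData.exists_five_torsion`: over an algebraically closed field there is a point of order 5.

Polynomial identities used (checked by `ring`), with `M = 4(x³+Ax+B)`, `N = x⁴-2Ax²-8Bx+A²`,
`ψ₃ = xM - N`, `h = x⁶+5Ax⁴+20Bx³-5A²x²-4ABx-8B²-A³`, `ψ₅ = 2hM² - ψ₃³`:
* `(12x²+16A)N - (3x³-5Ax-27B)M = 4(4A³+27B²)`;
* `4(N³+ANM²+BM³) = 4h²`;
* `N⁴-2AN²M²-8BNM³+A²M⁴ - xM·4(N³+ANM²+BM³) = -ψ₃ψ₅`.
-/

set_option autoImplicit false
set_option linter.unusedSectionVars false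

namespace Fermat.Agent.S51

namespace DupData

variable {K : Type*} [Field K] [CharZero K] {G : Type*} [AddCommGroup G] (D : DupData K G)

namespace T5

/-- `M(ξ) = 4(ξ³ + Aξ + B)`, the denominator of the duplication formula. -/
def M (ξ : K) : K := 4 * (ξ ^ 3 + D.A * ξ + D.B)

/-- `N(ξ) = ξ⁴ - 2Aξ² - 8Bξ + A²`, the numerator of the duplication formula. -/
def N (ξ : K) : K := ξ ^ 4 - 2 * D.A * ξ ^ 2 - 8 * D.B * ξ + D.A ^ 2

/-- the primitive 4-division polynomial, evaluated -/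
def h4 (ξ : K) : K :=
  ξ ^ 6 + 5 * D.A * ξ ^ 4 + 20 * D.B * ξ ^ 3 - 5 * D.A ^ 2 * ξ ^ 2 - 4 * D.A * D.B * ξ
    - 8 * D.B ^ 2 - D.A ^ 3

/-- the 5-division polynomial, evaluated -/
def psi5 (ξ : K) : K :=
  5 * ξ ^ 12 + 62 * D.A * ξ ^ 10 + 380 * D.B * ξ ^ 9 - 105 * D.A ^ 2 * ξ ^ 8
    + 240 * D.A * D.B * ξ ^ 7 - (300 * D.A ^ 3 + 240 * D.B ^ 2) * ξ ^ 6
    - 696 * D.A ^ 2 * D.B * ξ ^ 5 - (125 * D.A ^ 4 + 1920 * D.A * D.B ^ 2) * ξ ^ 4
    - (80 * D.A ^ 3 * D.B + 1600 * D.B ^ 3) * ξ ^ 3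
    - (50 * D.A ^ 5 + 240 * D.A ^ 2 * D.B ^ 2) * ξ ^ 2
    - (100 * D.A ^ 4 * D.B + 640 * D.A * D.B ^ 3) * ξ
    + (D.A ^ 6 - 32 * D.A ^ 3 * D.B ^ 2 - 256 * D.B ^ 4)

lemma psi3_eq (ξ : K) : D.psi3 ξ = ξ * M D ξ - N D ξ := by
  unfold psi3 M N; ring

lemma psi5_eq (ξ : K) : psi5 D ξ = 2 * h4 D ξ * M D ξ ^ 2 - D.psi3 ξ ^ 3 := by
  unfold psi5 h4 M psi3; ring

/-- `N` and `M` have no common zero. -/
lemma not_M_N_zero (ξ : K) (hM : M D ξ = 0) (hN : N D ξ = 0) : False := by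
  have key : (12 * ξ ^ 2 + 16 * D.A) * N D ξ - (3 * ξ ^ 3 - 5 * D.A * ξ - 27 * D.B) * M D ξ
      = 4 * (4 * D.A ^ 3 + 27 * D.B ^ 2) := by
    unfold M N; ring
  rw [hM, hN] at key
  have h4 : (4 : K) ≠ 0 := by norm_num
  exact mul_ne_zero h4 D.disc_ne (by rw [← key]; ring)

/-- If `x₂ M(x) = N(x)` then `M(x₂) M(x)³ = 4 h(x)²`. -/
lemma M_dup (x x₂ : K) (h : x₂ * M D x = N D x) :
    M D x₂ * M D x ^ 3 = 4 * h4 D x ^ 2 := by
  have e1 : M D x₂ * M D x ^ 3 =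
      4 * ((x₂ * M D x) ^ 3 + D.A * (x₂ * M D x) * M D x ^ 2 + D.B * M D x ^ 3) := by
    unfold M; ring
  rw [e1, h]
  unfold M N h4; ring

/-- If `x₂ M(x) = N(x)` then `(N(x₂) - x M(x₂)) M(x)⁴ = -ψ₃(x) ψ₅(x)`. -/
lemma N_dup (x x₂ : K) (h : x₂ * M D x = N D x) :
    (N D x₂ - x * M D x₂) * M D x ^ 4 = -(D.psi3 x * psi5 D x) := by
  have e1 : (N D x₂ - x * M D x₂) * M D x ^ 4 =
      ((x₂ * M D x) ^ 4 - 2 * D.A * (x₂ * M D x) ^ 2 * M D x ^ 2
        - 8 * D.B * (x₂ * M D x) * M D x ^ 3 + D.A ^ 2 * M D x ^ 4)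
      - x * M D x * (4 * ((x₂ * M D x) ^ 3 + D.A * (x₂ * M D x) * M D x ^ 2
        + D.B * M D x ^ 3)) := by
    unfold M N; ring
  rw [e1, h]
  unfold M N psi3 psi5; ring

/-- the duplication formula in terms of `M`, `N` -/
lemma dup' {P : G} (hP : P ≠ 0) (h2 : 2 • P ≠ 0) :
    D.X (2 • P) * M D (D.X P) = N D (D.X P) := D.dup P hP h2

lemma M_ne_zero_iff {P : G} (hP : P ≠ 0) : M D (D.X P) ≠ 0 ↔ 2 • P ≠ 0 := by
  rw [not_iff_not, D.two_tors_iff P hP]
  unfold M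
  constructor
  · intro h
    have h4 : (4 : K) ≠ 0 := by norm_num
    exact (mul_eq_zero.1 h).resolve_left h4
  · intro h; rw [h, mul_zero]

lemma X_neg {P : G} (hP : P ≠ 0) : D.X (-P) = D.X P :=
  (D.X_eq_iff (-P) P (neg_ne_zero.2 hP) hP).2 (Or.inr rfl)

/-- a nonzero 3-torsion point has `ψ₃(X P) = 0` -/
lemma psi3_eq_zero_of_three_smul' {P : G} (hP : P ≠ 0) (h3 : 3 • P = 0) :
    D.psi3 (D.X P) = 0 := by
  have h2 : 2 • P = -P := by
    have : 2 • P + P = 0 := by rw [← h3]; abel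
    exact eq_neg_of_add_eq_zero_left this
  have h2ne : 2 • P ≠ 0 := by rw [h2]; exact neg_ne_zero.2 hP
  have hd := dup' D hP h2ne
  rw [h2, X_neg D hP] at hd
  rw [psi3_eq, hd, sub_self]

/-! ### group-theoretic facts about a point of order 5 -/

lemma two_smul_ne_zero {Q : G} (hQ : Q ≠ 0) (h5 : 5 • Q = 0) : 2 • Q ≠ 0 := by
  intro h
  apply hQ
  have e : 5 • Q = 2 • (2 • Q) + Q := by abel
  rw [e, h, smul_zero, zero_add] at h5
  exact h5

lemma four_smul_eq {Q : G} (h5 : 5 • Q = 0) : 2 • (2 • Q) = -Q := by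
  have e : 2 • (2 • Q) + Q = 0 := by rw [← h5]; abel
  exact eq_neg_of_add_eq_zero_left e

lemma X_ne_X_two_smul {Q : G} (hQ : Q ≠ 0) (h5 : 5 • Q = 0) : D.X Q ≠ D.X (2 • Q) := by
  intro hx
  have h2 := two_smul_ne_zero hQ h5
  rcases (D.X_eq_iff Q (2 • Q) hQ h2).1 hx with h' | h'
  · apply hQ
    have e : 2 • Q = Q + Q := two_nsmul Q
    rw [e] at h'
    exact left_eq_add.1 h'
  · apply hQ
    have h3 : 3 • Q = 0 := by
      have e : 3 • Q = Q + 2 • Q := by abel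
      rw [e]
      nth_rewrite 1 [h']
      exact neg_add_cancel _
    have e6 : 2 • (3 • Q) = 5 • Q + Q := by abel
    rw [h3, h5, smul_zero, zero_add] at e6
    exact e6.symm

/-- the `x`-coordinate of a point of exact order 5 is not a root of `ψ₃` -/
lemma psi3_ne_zero_of_five_smul {Q : G} (hQ : Q ≠ 0) (h5 : 5 • Q = 0) :
    D.psi3 (D.X Q) ≠ 0 := by
  intro h
  have h2 := two_smul_ne_zero hQ h5
  have hd1 := dup' D hQ h2
  rw [psi3_eq, sub_eq_zero, ← hd1] at h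
  have hM : M D (D.X Q) ≠ 0 := (M_ne_zero_iff D hQ).2 h2
  exact X_ne_X_two_smul D hQ h5 (mul_right_cancel₀ hM h)

/-- the `x`-coordinate of a point of exact order 5 is a root of `ψ₅` -/
lemma psi5_eq_zero_of_five_smul {Q : G} (hQ : Q ≠ 0) (h5 : 5 • Q = 0) :
    psi5 D (D.X Q) = 0 := by
  have h2 := two_smul_ne_zero hQ h5
  have h4 := four_smul_eq h5
  have h4ne : 2 • (2 • Q) ≠ 0 := by rw [h4]; exact neg_ne_zero.2 hQ
  have hd1 := dup' D hQ h2
  have hd2 := dup' D h2 h4ne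
  rw [h4, X_neg D hQ] at hd2
  have key := N_dup D (D.X Q) (D.X (2 • Q)) hd1
  rw [← hd2, sub_self, zero_mul] at key
  have := neg_eq_zero.1 key.symm
  exact (mul_eq_zero.1 this).resolve_left (psi3_ne_zero_of_five_smul D hQ h5)

/-! ### the polynomial `ψ₅` -/

/-- the 5-division polynomial as a polynomial -/
noncomputable def psi5Poly : Polynomial K :=
  Polynomial.C 5 * Polynomial.X ^ 12 + Polynomial.C (62 * D.A) * Polynomial.X ^ 10
    + Polynomial.C (380 * D.B) * Polynomial.X ^ 9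
    - Polynomial.C (105 * D.A ^ 2) * Polynomial.X ^ 8
    + Polynomial.C (240 * D.A * D.B) * Polynomial.X ^ 7
    - Polynomial.C (300 * D.A ^ 3 + 240 * D.B ^ 2) * Polynomial.X ^ 6
    - Polynomial.C (696 * D.A ^ 2 * D.B) * Polynomial.X ^ 5
    - Polynomial.C (125 * D.A ^ 4 + 1920 * D.A * D.B ^ 2) * Polynomial.X ^ 4
    - Polynomial.C (80 * D.A ^ 3 * D.B + 1600 * D.B ^ 3) * Polynomial.X ^ 3
    - Polynomial.C (50 * D.A ^ 5 + 240 * D.A ^ 2 * D.B ^ 2) * Polynomial.X ^ 2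
    - Polynomial.C (100 * D.A ^ 4 * D.B + 640 * D.A * D.B ^ 3) * Polynomial.X
    + Polynomial.C (D.A ^ 6 - 32 * D.A ^ 3 * D.B ^ 2 - 256 * D.B ^ 4)

lemma eval_psi5Poly (ξ : K) : (psi5Poly D).eval ξ = psi5 D ξ := by
  simp only [psi5Poly, psi5, Polynomial.eval_add, Polynomial.eval_sub, Polynomial.eval_mul,
    Polynomial.eval_C, Polynomial.eval_pow, Polynomial.eval_X]

lemma natDegree_psi5Poly : (psi5Poly D).natDegree = 12 := by
  unfold psi5Poly
  compute_degree!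

lemma psi5Poly_ne_zero : psi5Poly D ≠ 0 := by
  apply Polynomial.ne_zero_of_natDegree_gt (n := 11)
  rw [natDegree_psi5Poly]; norm_num

end T5

/-! ### the interface theorems -/

/-- T-abs-5 (c): facts about a point of exact order 5. -/
theorem five_torsion_facts {Q : G} (hQ : Q ≠ 0) (h5 : 5 • Q = 0) :
    2 • Q ≠ 0 ∧ 2 • (2 • Q) = -Q ∧ D.X Q ≠ D.X (2 • Q) ∧
      D.X Q ^ 3 + D.A * D.X Q + D.B ≠ 0 ∧
      D.X (2 • Q) ^ 3 + D.A * D.X (2 • Q) + D.B ≠ 0 ∧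
      D.psi3 (D.X Q) ≠ 0 ∧ D.psi3 (D.X (2 • Q)) ≠ 0 := by
  have h2 := T5.two_smul_ne_zero hQ h5
  have h4 := T5.four_smul_eq h5
  have h4ne : 2 • (2 • Q) ≠ 0 := by rw [h4]; exact neg_ne_zero.2 hQ
  refine ⟨h2, h4, T5.X_ne_X_two_smul D hQ h5, ?_, ?_, T5.psi3_ne_zero_of_five_smul D hQ h5, ?_⟩
  · exact fun h => h2 ((D.two_tors_iff Q hQ).2 h)
  · exact fun h => h4ne ((D.two_tors_iff (2 • Q) h2).2 h)
  · -- `2 • Q` is again a point of exact order 5
    apply T5.psi3_ne_zero_of_five_smul D h2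
    rw [smul_comm, h5, smul_zero]

include D in
/-- T-abs-5 (a): the 5-torsion is finite with at most 33 elements (so `𝔽₅`-dimension ≤ 2). -/
theorem five_torsion_finite :
    Finite (Submodule.torsionBy ℤ G ((5 : ℕ) : ℤ)) ∧
      Nat.card (Submodule.torsionBy ℤ G ((5 : ℕ) : ℤ)) ≤ 33 := by
  classical
  set R : Finset K := (T5.psi5Poly D).roots.toFinset with hR
  have hRcard : R.card ≤ 12 := by
    calc R.card ≤ Multiset.card (T5.psi5Poly D).roots := Multiset.toFinset_card_le _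
      _ ≤ (T5.psi5Poly D).natDegree := Polynomial.card_roots' _
      _ = 12 := T5.natDegree_psi5Poly D
  let rep : K → Finset G := fun r =>
    if h : ∃ P : G, P ≠ 0 ∧ D.X P = r then {h.choose, -h.choose} else ∅
  have hrep : ∀ r, (rep r).card ≤ 2 := by
    intro r
    simp only [rep]
    split_ifs
    · exact Finset.card_le_two
    · simp
  let F : Finset G := insert 0 (R.biUnion rep)
  have hF : F.card ≤ 33 := by
    have h1 : F.card ≤ (R.biUnion rep).card + 1 := Finset.card_insert_le _ _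
    have h2 : (R.biUnion rep).card ≤ ∑ r ∈ R, (rep r).card := Finset.card_biUnion_le
    have h3 : ∑ r ∈ R, (rep r).card ≤ ∑ _r ∈ R, 2 := Finset.sum_le_sum fun r _ => hrep r
    have h4 : ∑ _r ∈ R, 2 = R.card * 2 := by simp
    omega
  have hsub : ((Submodule.torsionBy ℤ G ((5 : ℕ) : ℤ) : Submodule ℤ G) : Set G) ⊆ ↑F := by
    intro Q hQ
    have h5 : 5 • Q = 0 := by
      have := (Submodule.mem_torsionBy_iff _ _).1 hQ
      rwa [natCast_zsmul] at this
    by_cases hQ0 : Q = 0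
    · simp [F, hQ0]
    · have hroot : D.X Q ∈ R := by
        rw [hR, Multiset.mem_toFinset, Polynomial.mem_roots (T5.psi5Poly_ne_zero D),
          Polynomial.IsRoot, T5.eval_psi5Poly]
        exact T5.psi5_eq_zero_of_five_smul D hQ0 h5
      have hex : ∃ P : G, P ≠ 0 ∧ D.X P = D.X Q := ⟨Q, hQ0, rfl⟩
      have hmem : Q ∈ rep (D.X Q) := by
        simp only [rep, dif_pos hex]
        have hc := hex.choose_spec
        rcases (D.X_eq_iff Q hex.choose hQ0 hc.1).1 hc.2.symm with h | h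
        · exact Finset.mem_insert.2 (Or.inl h)
        · exact Finset.mem_insert.2 (Or.inr (Finset.mem_singleton.2 h))
      exact Finset.mem_coe.2 (Finset.mem_insert_of_mem (Finset.mem_biUnion.2 ⟨_, hroot, hmem⟩))
  have hfin : ((Submodule.torsionBy ℤ G ((5 : ℕ) : ℤ) : Submodule ℤ G) : Set G).Finite :=
    F.finite_toSet.subset hsub
  refine ⟨hfin.to_subtype, ?_⟩
  have h1 : Nat.card ((Submodule.torsionBy ℤ G ((5 : ℕ) : ℤ) : Submodule ℤ G) : Set G)
      ≤ Nat.card (↑F : Set G) := Nat.card_mono F.finite_toSet hsub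
  have h2 : Nat.card (↑F : Set G) = F.card := by simp
  exact (h1.trans h2.le).trans hF

include D in
/-- T-abs-5 (b): there is a point of order 5. -/
theorem exists_five_torsion [IsAlgClosed K] : ∃ Q : G, Q ≠ 0 ∧ 5 • Q = 0 := by
  have hdeg : (T5.psi5Poly D).degree ≠ 0 := by
    rw [Polynomial.degree_eq_natDegree (T5.psi5Poly_ne_zero D), T5.natDegree_psi5Poly]
    norm_num
  obtain ⟨x, hx⟩ := IsAlgClosed.exists_root _ hdeg
  rw [Polynomial.IsRoot, T5.eval_psi5Poly] at hx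
  obtain ⟨Q, hQ, rfl⟩ := D.surj x
  -- `M(x) ≠ 0`
  have hM : T5.M D (D.X Q) ≠ 0 := by
    intro hM
    have h1 := T5.psi5_eq D (D.X Q)
    rw [hx, hM] at h1
    have h2 := T5.psi3_eq D (D.X Q)
    rw [hM] at h2
    have h3 : D.psi3 (D.X Q) = 0 := by
      have : D.psi3 (D.X Q) ^ 3 = 0 := by linear_combination h1
      exact pow_eq_zero_iff (by norm_num) |>.1 this
    have hN : T5.N D (D.X Q) = 0 := by rw [h3] at h2; linear_combination h2
    exact T5.not_M_N_zero D _ hM hN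
  have h2 : 2 • Q ≠ 0 := (T5.M_ne_zero_iff D hQ).1 hM
  have hd1 := T5.dup' D hQ h2
  -- `ψ₃(x) ≠ 0`
  have hpsi3 : D.psi3 (D.X Q) ≠ 0 := by
    intro h3
    have h1 := T5.psi5_eq D (D.X Q)
    rw [hx, h3] at h1
    have hh : T5.h4 D (D.X Q) = 0 := by
      have : T5.h4 D (D.X Q) * T5.M D (D.X Q) ^ 2 = 0 := by linear_combination -(1 / 2 : K) * h1
      exact (mul_eq_zero.1 this).resolve_right (pow_ne_zero 2 hM)
    have hMd := T5.M_dup D _ _ hd1
    rw [hh] at hMd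
    have hM2 : T5.M D (D.X (2 • Q)) = 0 := by
      have : T5.M D (D.X (2 • Q)) * T5.M D (D.X Q) ^ 3 = 0 := by rw [hMd]; ring
      exact (mul_eq_zero.1 this).resolve_right (pow_ne_zero 3 hM)
    have hxx : D.X Q = D.X (2 • Q) := by
      rw [T5.psi3_eq, sub_eq_zero, ← hd1] at h3
      exact mul_right_cancel₀ hM h3
    rw [← hxx] at hM2
    exact hM hM2
  -- `N(x₂) = x M(x₂)` and `M(x₂) ≠ 0`
  have key := T5.N_dup D _ _ hd1
  rw [hx, mul_zero, neg_zero] at key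
  have key' : T5.N D (D.X (2 • Q)) = D.X Q * T5.M D (D.X (2 • Q)) :=
    sub_eq_zero.1 ((mul_eq_zero.1 key).resolve_right (pow_ne_zero 4 hM))
  have hM2 : T5.M D (D.X (2 • Q)) ≠ 0 := by
    intro h
    rw [h, mul_zero] at key'
    exact T5.not_M_N_zero D _ h key'
  have h4ne : 2 • (2 • Q) ≠ 0 := (T5.M_ne_zero_iff D h2).1 hM2
  have hd2 := T5.dup' D h2 h4ne
  rw [key'] at hd2
  have hX : D.X (2 • (2 • Q)) = D.X Q := mul_right_cancel₀ hM2 hd2
  rcases (D.X_eq_iff _ _ h4ne hQ).1 hX with h | h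
  · -- `4Q = Q`, so `3Q = 0`, contradicting `ψ₃(x) ≠ 0`
    exfalso
    apply hpsi3
    apply T5.psi3_eq_zero_of_three_smul' D hQ
    have e : 2 • (2 • Q) = 3 • Q + Q := by abel
    rw [e] at h
    exact add_eq_right.1 h
  · -- `4Q = -Q`, so `5Q = 0`
    refine ⟨Q, hQ, ?_⟩
    have e : 5 • Q = 2 • (2 • Q) + Q := by abel
    rw [e, h, neg_add_cancel]

end DupData

end Fermat.Agent.S51
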