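import Fermat.Agent.S51.CurveDup
import Fermat.Agent.S51.DupData3
import Fermat.Agent.S51.DupData5

/-!
# S51, part T-gal: reducible mod-3 / mod-5 representation ⇒ rational algebraic data
-/

set_option autoImplicit false

open WeierstrassCurve WeierstrassCurve.Affine WeierstrassCurve.Affine.Point

namespace Fermat.Agent.S51

namespace TGal

/-- In a finite `ZMod p`-vector space with fewer than `p ^ 3` elements, every submodule
different from `⊥` and `⊤` is a line. -/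
theorem exists_generator_of_card_lt {p : ℕ} [Fact p.Prime] {V : Type*} [AddCommGroup V]
    [Module (ZMod p) V] [Finite V] (hcard : Nat.card V < p ^ 3)
    (N : Submodule (ZMod p) V) (h0 : N ≠ ⊥) (h1 : N ≠ ⊤) :
    ∃ P ∈ N, P ≠ 0 ∧ ∀ R ∈ N, ∃ c : ZMod p, R = c • P := by
  have hV : Nat.card V = p ^ Module.finrank (ZMod p) V := by
    have h := Module.natCard_eq_pow_finrank (K := ZMod p) (V := V)
    rwa [Nat.card_zmod] at h
  have hd : Module.finrank (ZMod p) V < 3 := by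
    rw [hV] at hcard
    exact (Nat.pow_lt_pow_iff_right (Fact.out : p.Prime).one_lt).mp hcard
  have hN1 : Module.finrank (ZMod p) N < Module.finrank (ZMod p) V := Submodule.finrank_lt h1
  have hN0 : 0 < Module.finrank (ZMod p) N := by
    rw [Module.finrank_pos_iff]
    exact Submodule.nontrivial_iff_ne_bot.mpr h0
  have hN : Module.finrank (ZMod p) N = 1 := by omega
  obtain ⟨⟨P, hP⟩, hP0, hgen⟩ := finrank_eq_one_iff'.mp hN
  refine ⟨P, hP, fun h => hP0 (Subtype.ext h), fun R hR => ?_⟩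
  obtain ⟨c, hc⟩ := hgen ⟨R, hR⟩
  exact ⟨c, (congrArg Subtype.val hc).symm⟩

/-- An element of `ℚ̄` fixed by the whole Galois group is rational. -/
theorem exists_rat_of_fixed (x : AlgebraicClosure ℚ)
    (hx : ∀ σ : AlgebraicClosure ℚ ≃ₐ[ℚ] AlgebraicClosure ℚ, σ x = x) :
    ∃ q : ℚ, algebraMap ℚ (AlgebraicClosure ℚ) q = x := by
  have : Algebra.IsAlgebraic ℚ (AlgebraicClosure ℚ) := AlgebraicClosure.isAlgebraic ℚ
  have : IsAlgClosure ℚ (AlgebraicClosure ℚ) := ⟨inferInstance, inferInstance⟩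
  have : IsGalois ℚ (AlgebraicClosure ℚ) := IsAlgClosure.isGalois ℚ (AlgebraicClosure ℚ)
  exact (InfiniteGalois.mem_range_algebraMap_iff_fixed (k := ℚ) (K := AlgebraicClosure ℚ) x).mpr hx

theorem zmod3_cases : ∀ c : ZMod 3, c ≠ 0 → c = 1 ∨ c = -1 := by decide

theorem zmod5_cases : ∀ c : ZMod 5, c ≠ 0 → c = 1 ∨ c = -1 ∨ c = 2 ∨ c = -2 := by decide

end TGal

local notation "Kbar" => AlgebraicClosure ℚ

theorem nontrivial_three (E : WeierstrassCurve ℚ) (hΔ : E.Δ ≠ 0) :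
    Nontrivial (Submodule.torsionBy ℤ (E⁄(AlgebraicClosure ℚ)).Point ((3 : ℕ) : ℤ)) := by
  obtain ⟨P, hP0, hP3⟩ := (curveDupData E hΔ).exists_three_torsion
  refine ⟨⟨⟨P, ?_⟩, 0, ?_⟩⟩
  · rw [Submodule.mem_torsionBy_iff, natCast_zsmul]; exact hP3
  · intro h; exact hP0 (congrArg Subtype.val h)

theorem nontrivial_five (E : WeierstrassCurve ℚ) (hΔ : E.Δ ≠ 0) :
    Nontrivial (Submodule.torsionBy ℤ (E⁄(AlgebraicClosure ℚ)).Point ((5 : ℕ) : ℤ)) := by
  obtain ⟨P, hP0, hP5⟩ := (curveDupData E hΔ).exists_five_torsion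
  refine ⟨⟨⟨P, ?_⟩, 0, ?_⟩⟩
  · rw [Submodule.mem_torsionBy_iff, natCast_zsmul]; exact hP5
  · intro h; exact hP0 (congrArg Subtype.val h)

/-- T3: if the mod-3 representation is not irreducible, `ψ₃` has a rational root. -/
theorem exists_root_of_not_irreducible_three (E : WeierstrassCurve ℚ) (hΔ : E.Δ ≠ 0)
    (h : ¬ GaloisRepIsIrreducible (K := AlgebraicClosure ℚ) ℚ E 3) :
    ∃ x₀ : ℚ, 3 * x₀ ^ 4 + 6 * sA E * x₀ ^ 2 + 12 * sB E * x₀ - sA E ^ 2 = 0 := by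
  have hnt := nontrivial_three E hΔ
  obtain ⟨hfin, hcard⟩ := (curveDupData E hΔ).three_torsion_finite
  have h' : ∃ N : Submodule (ZMod 3)
      (Submodule.torsionBy ℤ (E⁄(AlgebraicClosure ℚ)).Point ((3 : ℕ) : ℤ)),
      IsGaloisStable ℚ N ∧ N ≠ ⊥ ∧ N ≠ ⊤ := by
    by_contra hcon
    refine h ⟨hnt, fun N hN => ?_⟩
    by_contra hne
    rw [not_or] at hne
    exact hcon ⟨N, hN, hne.1, hne.2⟩
  obtain ⟨N, hstab, h0, h1⟩ := h'
  obtain ⟨P, hPN, hP0, hgen⟩ :=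
    TGal.exists_generator_of_card_lt (p := 3) (lt_of_le_of_lt hcard (by norm_num)) N h0 h1
  have hP0' : (P : (E⁄(AlgebraicClosure ℚ)).Point) ≠ 0 := fun h => hP0 (Subtype.ext h)
  have hfix : ∀ σ : AlgebraicClosure ℚ ≃ₐ[ℚ] AlgebraicClosure ℚ,
      σ (ptX E (P : (E⁄(AlgebraicClosure ℚ)).Point)) = ptX E P := by
    intro σ
    obtain ⟨c, hc⟩ := hgen (σ • P) (hstab σ P hPN)
    have hσ0 : σ • P ≠ 0 := by
      intro h0
      apply hP0
      have h2 := congrArg (fun x => σ⁻¹ • x) h0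
      simp only [inv_smul_smul, smul_zero] at h2
      exact h2
    have hc0 : c ≠ 0 := by
      rintro rfl
      rw [zero_smul] at hc
      exact hσ0 hc
    have hσ0' : σ • (P : (E⁄(AlgebraicClosure ℚ)).Point) ≠ 0 :=
      fun h => hσ0 (Subtype.ext h)
    have hcase : σ • (P : (E⁄(AlgebraicClosure ℚ)).Point) = P ∨
        σ • (P : (E⁄(AlgebraicClosure ℚ)).Point) = -P := by
      rcases TGal.zmod3_cases c hc0 with rfl | rfl
      · left
        rw [one_smul] at hc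
        exact congrArg Subtype.val hc
      · right
        rw [neg_one_smul] at hc
        exact congrArg Subtype.val hc
    rw [← ptX_smul]
    exact ((curveDupData E hΔ).X_eq_iff _ _ hσ0' hP0').mpr hcase
  obtain ⟨x₀, hx₀⟩ := TGal.exists_rat_of_fixed _ hfix
  have h3 : 3 • (P : (E⁄(AlgebraicClosure ℚ)).Point) = 0 := by
    have h := P.2
    rw [Submodule.mem_torsionBy_iff, natCast_zsmul] at h
    exact h
  have hpsi := (curveDupData E hΔ).psi3_eq_zero_of_three_smul hP0' h3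
  refine ⟨x₀, ?_⟩
  apply (algebraMap ℚ (AlgebraicClosure ℚ)).injective
  simp only [map_add, map_sub, map_mul, map_pow, map_ofNat, _root_.map_zero]
  rw [hx₀]
  exact hpsi

/-- T5: if the mod-5 representation is not irreducible, there is a rational quadratic
`x² + u x + v` whose roots are the `x`-coordinates of `Q, 2Q` for a point `Q` of order 5. -/
theorem exists_quad_of_not_irreducible_five (E : WeierstrassCurve ℚ) (hΔ : E.Δ ≠ 0)
    (h : ¬ GaloisRepIsIrreducible (K := AlgebraicClosure ℚ) ℚ E 5) :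
    ∃ u v : ℚ, u ^ 2 - 4 * v ≠ 0 ∧
      -u ^ 3 + 6 * u * v + 2 * sA E * u - 4 * sB E = 0 ∧
      sA E ^ 2 - 2 * sA E * v + 5 * v ^ 2 - u ^ 2 * v + 4 * u * sB E = 0 ∧
      ∀ x₀ : ℚ, 3 * x₀ ^ 4 + 6 * sA E * x₀ ^ 2 + 12 * sB E * x₀ - sA E ^ 2 = 0 →
        x₀ ^ 2 + u * x₀ + v ≠ 0 := by
  have : Fact (Nat.Prime 5) := ⟨by norm_num⟩
  have hnt := nontrivial_five E hΔ
  obtain ⟨hfin, hcard⟩ := (curveDupData E hΔ).five_torsion_finite
  have h' : ∃ N : Submodule (ZMod 5)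
      (Submodule.torsionBy ℤ (E⁄(AlgebraicClosure ℚ)).Point ((5 : ℕ) : ℤ)),
      IsGaloisStable ℚ N ∧ N ≠ ⊥ ∧ N ≠ ⊤ := by
    by_contra hcon
    refine h ⟨hnt, fun N hN => ?_⟩
    by_contra hne
    rw [not_or] at hne
    exact hcon ⟨N, hN, hne.1, hne.2⟩
  obtain ⟨N, hstab, h0, h1⟩ := h'
  obtain ⟨Q, hQN, hQ0, hgen⟩ :=
    TGal.exists_generator_of_card_lt (p := 5) (lt_of_le_of_lt hcard (by norm_num)) N h0 h1
  have hQ0' : (Q : (E⁄(AlgebraicClosure ℚ)).Point) ≠ 0 := fun h => hQ0 (Subtype.ext h)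
  have h5 : 5 • (Q : (E⁄(AlgebraicClosure ℚ)).Point) = 0 := by
    have h := Q.2
    rw [Submodule.mem_torsionBy_iff, natCast_zsmul] at h
    exact h
  obtain ⟨h2Q, h4Q, hX12, hM1, hM2, hpsi1, hpsi2⟩ :=
    (curveDupData E hΔ).five_torsion_facts hQ0' h5
  -- `X (-P) = X P`
  have hXneg : ∀ P : (E⁄(AlgebraicClosure ℚ)).Point, P ≠ 0 → ptX E (-P) = ptX E P :=
    fun P hP => ((curveDupData E hΔ).X_eq_iff (-P) P (neg_ne_zero.mpr hP) hP).mpr (Or.inr rfl)
  have hX4 : ptX E (2 • (2 • (Q : (E⁄(AlgebraicClosure ℚ)).Point))) = ptX E Q := by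
    rw [h4Q]; exact hXneg _ hQ0'
  -- the Galois group permutes `{x₁, x₂}`
  have hperm : ∀ σ : AlgebraicClosure ℚ ≃ₐ[ℚ] AlgebraicClosure ℚ,
      (σ (ptX E (Q : (E⁄(AlgebraicClosure ℚ)).Point)) = ptX E Q ∧
        σ (ptX E (2 • (Q : (E⁄(AlgebraicClosure ℚ)).Point))) = ptX E (2 • Q)) ∨
      (σ (ptX E (Q : (E⁄(AlgebraicClosure ℚ)).Point)) = ptX E (2 • Q) ∧
        σ (ptX E (2 • (Q : (E⁄(AlgebraicClosure ℚ)).Point))) = ptX E Q) := by
    intro σ
    obtain ⟨c, hc⟩ := hgen (σ • Q) (hstab σ Q hQN)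
    have hσ0 : σ • Q ≠ 0 := by
      intro h0
      apply hQ0
      have h2 := congrArg (fun x => σ⁻¹ • x) h0
      simp only [inv_smul_smul, smul_zero] at h2
      exact h2
    have hc0 : c ≠ 0 := by
      rintro rfl
      rw [zero_smul] at hc
      exact hσ0 hc
    have h2σ : σ • (2 • (Q : (E⁄(AlgebraicClosure ℚ)).Point)) =
        2 • (σ • (Q : (E⁄(AlgebraicClosure ℚ)).Point)) := by
      rw [two_nsmul, two_nsmul]
      exact smul_add σ (Q : (E⁄(AlgebraicClosure ℚ)).Point) (Q : (E⁄(AlgebraicClosure ℚ)).Point)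
    rw [← ptX_smul, ← ptX_smul, h2σ]
    rcases TGal.zmod5_cases c hc0 with rfl | rfl | rfl | rfl
    · left
      rw [one_smul] at hc
      have hc' : σ • (Q : (E⁄(AlgebraicClosure ℚ)).Point) = Q := congrArg Subtype.val hc
      rw [hc']
      exact ⟨rfl, rfl⟩
    · left
      rw [neg_one_smul] at hc
      have hc' : σ • (Q : (E⁄(AlgebraicClosure ℚ)).Point) = -Q := congrArg Subtype.val hc
      rw [hc', neg_nsmul]
      exact ⟨hXneg _ hQ0', hXneg _ h2Q⟩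
    · right
      rw [two_smul] at hc
      have hc' : σ • (Q : (E⁄(AlgebraicClosure ℚ)).Point) = 2 • Q := by
        rw [two_nsmul]; exact congrArg Subtype.val hc
      rw [hc']
      exact ⟨rfl, hX4⟩
    · right
      rw [neg_smul, two_smul] at hc
      have hc' : σ • (Q : (E⁄(AlgebraicClosure ℚ)).Point) = -(2 • Q) := by
        rw [two_nsmul]; exact congrArg Subtype.val hc
      rw [hc', neg_nsmul]
      have h4Q0 : 2 • (2 • (Q : (E⁄(AlgebraicClosure ℚ)).Point)) ≠ 0 := by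
        rw [h4Q]; exact neg_ne_zero.mpr hQ0'
      exact ⟨hXneg _ h2Q, (hXneg _ h4Q0).trans hX4⟩
  set x₁ : AlgebraicClosure ℚ := ptX E (Q : (E⁄(AlgebraicClosure ℚ)).Point) with hx₁
  set x₂ : AlgebraicClosure ℚ := ptX E (2 • (Q : (E⁄(AlgebraicClosure ℚ)).Point)) with hx₂
  obtain ⟨s, hs⟩ := TGal.exists_rat_of_fixed (x₁ + x₂) (fun σ => by
    rcases hperm σ with ⟨h1, h2⟩ | ⟨h1, h2⟩
    · rw [map_add, h1, h2]
    · rw [map_add, h1, h2, add_comm])
  obtain ⟨v, hv⟩ := TGal.exists_rat_of_fixed (x₁ * x₂) (fun σ => by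
    rcases hperm σ with ⟨h1, h2⟩ | ⟨h1, h2⟩
    · rw [map_mul, h1, h2]
    · rw [map_mul, h1, h2, mul_comm])
  -- the two duplication identities
  have hE1 := (curveDupData E hΔ).dup _ hQ0' h2Q
  have h4Q0 : 2 • (2 • (Q : (E⁄(AlgebraicClosure ℚ)).Point)) ≠ 0 := by
    rw [h4Q]; exact neg_ne_zero.mpr hQ0'
  have hE2 := (curveDupData E hΔ).dup _ h2Q h4Q0
  change ptX E (2 • (2 • (Q : (E⁄(AlgebraicClosure ℚ)).Point))) * _ = _ at hE2
  rw [hX4] at hE2
  change x₂ * (4 * (x₁ ^ 3 + algebraMap ℚ (AlgebraicClosure ℚ) (sA E) * x₁ +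
      algebraMap ℚ (AlgebraicClosure ℚ) (sB E))) =
    x₁ ^ 4 - 2 * algebraMap ℚ (AlgebraicClosure ℚ) (sA E) * x₁ ^ 2 -
      8 * algebraMap ℚ (AlgebraicClosure ℚ) (sB E) * x₁ +
      algebraMap ℚ (AlgebraicClosure ℚ) (sA E) ^ 2 at hE1
  change x₁ * (4 * (x₂ ^ 3 + algebraMap ℚ (AlgebraicClosure ℚ) (sA E) * x₂ +
      algebraMap ℚ (AlgebraicClosure ℚ) (sB E))) =
    x₂ ^ 4 - 2 * algebraMap ℚ (AlgebraicClosure ℚ) (sA E) * x₂ ^ 2 -
      8 * algebraMap ℚ (AlgebraicClosure ℚ) (sB E) * x₂ +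
      algebraMap ℚ (AlgebraicClosure ℚ) (sA E) ^ 2 at hE2
  have hne : x₁ - x₂ ≠ 0 := sub_ne_zero.mpr hX12
  set a : AlgebraicClosure ℚ := algebraMap ℚ (AlgebraicClosure ℚ) (sA E) with ha
  set b : AlgebraicClosure ℚ := algebraMap ℚ (AlgebraicClosure ℚ) (sB E) with hb
  have hR1 : -(-(x₁ + x₂)) ^ 3 + 6 * (-(x₁ + x₂)) * (x₁ * x₂) + 2 * a * (-(x₁ + x₂)) - 4 * b = 0 := by
    have hmul : (x₁ - x₂) *
        (-(-(x₁ + x₂)) ^ 3 + 6 * (-(x₁ + x₂)) * (x₁ * x₂) + 2 * a * (-(x₁ + x₂)) - 4 * b) = 0 := by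
      linear_combination hE2 - hE1
    exact (mul_eq_zero.mp hmul).resolve_left hne
  have hR2 : a ^ 2 - 2 * a * (x₁ * x₂) + 5 * (x₁ * x₂) ^ 2 - (-(x₁ + x₂)) ^ 2 * (x₁ * x₂) +
      4 * (-(x₁ + x₂)) * b = 0 := by
    have hmul : (x₁ - x₂) *
        (a ^ 2 - 2 * a * (x₁ * x₂) + 5 * (x₁ * x₂) ^ 2 - (-(x₁ + x₂)) ^ 2 * (x₁ * x₂) +
          4 * (-(x₁ + x₂)) * b) = 0 := by
      linear_combination x₂ * hE1 - x₁ * hE2
    exact (mul_eq_zero.mp hmul).resolve_left hne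
  have hinj := (algebraMap ℚ (AlgebraicClosure ℚ)).injective
  refine ⟨-s, v, ?_, ?_, ?_, ?_⟩
  · intro hzero
    have h2 := congrArg (algebraMap ℚ (AlgebraicClosure ℚ)) hzero
    simp only [map_sub, map_mul, map_pow, map_neg, map_ofNat, _root_.map_zero] at h2
    rw [hs, hv] at h2
    have h3 : (x₁ - x₂) ^ 2 = 0 := by linear_combination h2
    exact hne (pow_eq_zero_iff two_ne_zero |>.mp h3)
  · apply hinj
    simp only [map_add, map_sub, map_mul, map_pow, map_neg, map_ofNat, _root_.map_zero]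
    rw [hs, hv]
    exact hR1
  · apply hinj
    simp only [map_add, map_sub, map_mul, map_pow, map_neg, map_ofNat, _root_.map_zero]
    rw [hs, hv]
    exact hR2
  · intro x₀ hx₀ hquad
    have h2 := congrArg (algebraMap ℚ (AlgebraicClosure ℚ)) hquad
    simp only [map_add, map_mul, map_pow, map_neg, _root_.map_zero] at h2
    rw [hs, hv] at h2
    have h3 : (algebraMap ℚ (AlgebraicClosure ℚ) x₀ - x₁) *
        (algebraMap ℚ (AlgebraicClosure ℚ) x₀ - x₂) = 0 := by linear_combination h2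
    have h4 := congrArg (algebraMap ℚ (AlgebraicClosure ℚ)) hx₀
    simp only [map_add, map_sub, map_mul, map_pow, map_ofNat, _root_.map_zero] at h4
    rcases mul_eq_zero.mp h3 with h | h
    · rw [sub_eq_zero] at h
      rw [h] at h4
      exact hpsi1 h4
    · rw [sub_eq_zero] at h
      rw [h] at h4
      exact hpsi2 h4

end Fermat.Agent.S51
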