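import Mathlib
import Fermat.Prelude.Def_FLTPrelim_Modularity

/-!
# S51, part S: the four non-cuspidal rational points of `X₀(15)` are not semistable

If `j = c₄³/Δ = (t+27)(t+3)³/t` with `t ∈ {-2, -32, -729/2, -729/32}` then, clearing
denominators, `a c₄³ = b Δ` with `a = ± 2^k` and `5 ∣ b`, `125 ∤ b`.  Hence `5 ∣ c₄` and
`5 ∣ Δ`, which contradicts semistability at `5`.
-/

set_option autoImplicit false

namespace Fermat.Agent.S51

namespace Semistable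

lemma prime_five_int : Prime (5 : ℤ) := by
  rw [Int.prime_iff_natAbs_prime]; norm_num

/-- If `a c³ = b Δ` with `5 ∤ a`, `5 ∣ b`, `125 ∤ b` then `5 ∣ c` and `5 ∣ Δ`. -/
lemma five_dvd_of_eq (c Δ a b : ℤ) (h : a * c ^ 3 = b * Δ) (ha : ¬ (5 : ℤ) ∣ a)
    (hb5 : (5 : ℤ) ∣ b) (hb : ¬ (125 : ℤ) ∣ b) : (5 : ℤ) ∣ c ∧ (5 : ℤ) ∣ Δ := by
  have h5 := prime_five_int
  have hc : (5 : ℤ) ∣ c := by
    have h1 : (5 : ℤ) ∣ a * c ^ 3 := by rw [h]; exact Dvd.dvd.mul_right hb5 Δ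
    rcases h5.dvd_or_dvd h1 with h2 | h2
    · exact absurd h2 ha
    · exact h5.dvd_of_dvd_pow h2
  refine ⟨hc, ?_⟩
  by_contra hΔ
  obtain ⟨m, rfl⟩ := hc
  have hcop : IsCoprime ((5 : ℤ) ^ 3) Δ :=
    IsCoprime.pow_left ((Prime.coprime_iff_not_dvd h5).2 hΔ)
  have hdvd : (5 : ℤ) ^ 3 ∣ b * Δ := ⟨a * m ^ 3, by rw [← h]; ring⟩
  have : (5 : ℤ) ^ 3 ∣ b := hcop.dvd_of_dvd_mul_right hdvd
  exact hb (by norm_num at this; exact this)

end Semistable

set_option linter.unusedVariables false in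
/-- Part S: no semistable integral model has `j = (t+27)(t+3)³/t` for the four values of `t`. -/
theorem semistable_contra (W : WeierstrassCurve ℤ) (hΔ : W.Δ ≠ 0) (hW : W.IsSemistableModel)
    (t : ℚ) (ht : t = -2 ∨ t = -32 ∨ t = -729 / 2 ∨ t = -729 / 32)
    (hj : (W.c₄ : ℚ) ^ 3 * t = (W.Δ : ℚ) * ((t + 27) * (t + 3) ^ 3)) : False := by
  have key : ∀ a b : ℤ, a * W.c₄ ^ 3 = b * W.Δ → ¬ (5 : ℤ) ∣ a → (5 : ℤ) ∣ b →
      ¬ (125 : ℤ) ∣ b → False := by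
    intro a b h ha hb5 hb
    obtain ⟨hc, hd⟩ := Semistable.five_dvd_of_eq W.c₄ W.Δ a b h ha hb5 hb
    exact hW 5 Nat.prime_five (by exact_mod_cast hd) (by exact_mod_cast hc)
  rcases ht with rfl | rfl | rfl | rfl
  · -- `t = -2`: `-2 c₄³ = 25 Δ`
    refine key (-2) 25 ?_ (by norm_num) (by norm_num) (by norm_num)
    have : ((-2 * W.c₄ ^ 3 : ℤ) : ℚ) = ((25 * W.Δ : ℤ) : ℚ) := by
      push_cast; linear_combination hj
    exact_mod_cast this
  · -- `t = -32`: `-32 c₄³ = 121945 Δ`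
    refine key (-32) 121945 ?_ (by norm_num) (by norm_num) (by norm_num)
    have : ((-32 * W.c₄ ^ 3 : ℤ) : ℚ) = ((121945 * W.Δ : ℤ) : ℚ) := by
      push_cast; linear_combination hj
    exact_mod_cast this
  · -- `t = -729/2`: `-8 c₄³ = 349938025 Δ`
    refine key (-8) 349938025 ?_ (by norm_num) (by norm_num) (by norm_num)
    have : ((-8 * W.c₄ ^ 3 : ℤ) : ℚ) = ((349938025 * W.Δ : ℤ) : ℚ) := by
      push_cast; linear_combination (16 / 729 : ℚ) * hj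
    exact_mod_cast this
  · -- `t = -729/32`: `32768 c₄³ = 46969655 Δ`
    refine key 32768 46969655 ?_ (by norm_num) (by norm_num) (by norm_num)
    have : ((32768 * W.c₄ ^ 3 : ℤ) : ℚ) = ((46969655 * W.Δ : ℤ) : ℚ) := by
      push_cast; linear_combination (-1048576 / 729 : ℚ) * hj
    exact_mod_cast this

end Fermat.Agent.S51
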