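import Fermat.Agent.S51.DupData
import Fermat.Prelude.Def_FLTPrelim_GaloisRep

/-!
# S51, part T-inst: the points of an elliptic curve over `ℚ`, base-changed to `K = ℚ̄`,
form `DupData` with `A = -27 c₄`, `B = -54 c₆` and `X (x, y) = 36 x + 3 b₂`.
-/

set_option autoImplicit false

open WeierstrassCurve WeierstrassCurve.Affine WeierstrassCurve.Affine.Point

namespace Fermat.Agent.S51

/-- short Weierstrass coefficient `A = -27 c₄` -/
def sA (E : WeierstrassCurve ℚ) : ℚ := -27 * E.c₄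
/-- short Weierstrass coefficient `B = -54 c₆` -/
def sB (E : WeierstrassCurve ℚ) : ℚ := -54 * E.c₆

/-- the normalised `x`-coordinate `36 x + 3 b₂` of a point (junk `0` at the origin) -/
noncomputable def ptX (E : WeierstrassCurve ℚ) :
    (E⁄(AlgebraicClosure ℚ)).Point → AlgebraicClosure ℚ
  | .zero => 0
  | .some x _ _ => 36 * x + 3 * algebraMap ℚ (AlgebraicClosure ℚ) E.b₂

namespace CurveDupAux

/-! ### Generic facts about the affine group law over a field (long Weierstrass form) -/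

section Generic

variable {L : Type*} [Field L]

/-- On the curve, `4x³ + b₂x² + 2b₄x + b₆ = (y - negY x y)²`. -/
lemma psi2_sq_eq {W : Affine L} {x y : L} (h : W.Equation x y) :
    4 * x ^ 3 + W.b₂ * x ^ 2 + 2 * W.b₄ * x + W.b₆ = (y - W.negY x y) ^ 2 := by
  rw [Affine.equation_iff] at h
  simp only [Affine.negY, b₂, b₄, b₆]
  linear_combination (-4 : L) * h

/-- The short-form cubic in `X = 36x + 3b₂` is `11664 (4x³ + b₂x² + 2b₄x + b₆)`. -/
lemma short_cubic (W : WeierstrassCurve L) (x : L) :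
    (36 * x + 3 * W.b₂) ^ 3 + (-27 * W.c₄) * (36 * x + 3 * W.b₂) + (-54 * W.c₆) =
      11664 * (4 * x ^ 3 + W.b₂ * x ^ 2 + 2 * W.b₄ * x + W.b₆) := by
  simp only [c₄, c₆]
  ring

/-- The short-form duplication numerator in `X = 36x + 3b₂`. -/
lemma short_dup_num (W : WeierstrassCurve L) (x : L) :
    (36 * x + 3 * W.b₂) ^ 4 - 2 * (-27 * W.c₄) * (36 * x + 3 * W.b₂) ^ 2
        - 8 * (-54 * W.c₆) * (36 * x + 3 * W.b₂) + (-27 * W.c₄) ^ 2 =
      1679616 * (x ^ 4 - W.b₄ * x ^ 2 - 2 * W.b₆ * x - W.b₈)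
        + 139968 * W.b₂ * (4 * x ^ 3 + W.b₂ * x ^ 2 + 2 * W.b₄ * x + W.b₆) := by
  simp only [c₄, c₆, b₂, b₄, b₆, b₈]
  ring

variable [DecidableEq L]

/-- The duplication formula for the `x`-coordinate (long Weierstrass form). -/
theorem dbl_some {W : Affine L} {x y : L} (h : W.Nonsingular x y) (hy : y ≠ W.negY x y) :
    ∃ (x' y' : L) (h' : W.Nonsingular x' y'),
      Affine.Point.some _ _ h + Affine.Point.some _ _ h = Affine.Point.some _ _ h' ∧
      x' * (4 * x ^ 3 + W.b₂ * x ^ 2 + 2 * W.b₄ * x + W.b₆) =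
        x ^ 4 - W.b₄ * x ^ 2 - 2 * W.b₆ * x - W.b₈ := by
  refine ⟨_, _, Affine.nonsingular_add h h fun hxy => hy hxy.right,
    Affine.Point.add_self_of_Y_ne hy, ?_⟩
  obtain ⟨d, hdd⟩ : ∃ d : L, d = 2 * y + W.a₁ * x + W.a₃ := ⟨_, rfl⟩
  have hd : d ≠ 0 := by
    intro h0
    apply hy
    simp only [Affine.negY]
    linear_combination h0 - hdd
  have hs : W.slope x x y y = (3 * x ^ 2 + 2 * W.a₂ * x + W.a₄ - W.a₁ * y) / d := by
    rw [Affine.slope_of_Y_ne rfl hy, hdd]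
    congr 1
    simp only [Affine.negY]
    ring
  have hpsi : 4 * x ^ 3 + W.b₂ * x ^ 2 + 2 * W.b₄ * x + W.b₆ = d ^ 2 := by
    rw [psi2_sq_eq h.1, hdd]
    simp only [Affine.negY]
    ring
  rw [hpsi, hs]
  have h6 : W.a₆ = y ^ 2 + W.a₁ * x * y + W.a₃ * y - x ^ 3 - W.a₂ * x ^ 2 - W.a₄ * x := by
    have := h.1
    rw [Affine.equation_iff] at this
    linear_combination -this
  have h3 : W.a₃ = d - 2 * y - W.a₁ * x := by linear_combination -hdd
  simp only [Affine.addX, b₄, b₆, b₈]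
  generalize W.a₆ = a6 at *
  generalize W.a₃ = a3 at *
  subst h6 h3
  field_simp
  ring

end Generic

/-! ### The curve over `ℚ̄` -/

section Main

local notation "Qbar" => AlgebraicClosure ℚ

variable (E : WeierstrassCurve ℚ)

lemma bc_b₂ : (E⁄Qbar).b₂ = algebraMap ℚ Qbar E.b₂ := WeierstrassCurve.map_b₂ E _
lemma bc_c₄ : (E⁄Qbar).c₄ = algebraMap ℚ Qbar E.c₄ := WeierstrassCurve.map_c₄ E _
lemma bc_c₆ : (E⁄Qbar).c₆ = algebraMap ℚ Qbar E.c₆ := WeierstrassCurve.map_c₆ E _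
lemma bc_Δ : (E⁄Qbar).Δ = algebraMap ℚ Qbar E.Δ := WeierstrassCurve.map_Δ E _

lemma algebraMap_sA : algebraMap ℚ Qbar (sA E) = -27 * (E⁄Qbar).c₄ := by
  rw [sA, bc_c₄, map_mul, map_neg, map_ofNat]

lemma algebraMap_sB : algebraMap ℚ Qbar (sB E) = -54 * (E⁄Qbar).c₆ := by
  rw [sB, bc_c₆, map_mul, map_neg, map_ofNat]

lemma ptX_some {x y : Qbar} (h : (E⁄Qbar).Nonsingular x y) :
    ptX E (Affine.Point.some x y h) = 36 * x + 3 * (E⁄Qbar).b₂ := by
  rw [bc_b₂]; rfl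

lemma ptX_zero : ptX E (0 : (E⁄Qbar).Point) = 0 := rfl

lemma bc_Δ_ne_zero (hΔ : E.Δ ≠ 0) : (E⁄Qbar).Δ ≠ 0 := by
  rw [bc_Δ]
  exact (map_ne_zero_iff _ (algebraMap ℚ Qbar).injective).mpr hΔ

lemma disc_ne (hΔ : E.Δ ≠ 0) :
    4 * (algebraMap ℚ Qbar (sA E)) ^ 3 + 27 * (algebraMap ℚ Qbar (sB E)) ^ 2 ≠ 0 := by
  rw [algebraMap_sA, algebraMap_sB]
  have h := (E⁄Qbar).c_relation
  have hne := bc_Δ_ne_zero E hΔ
  intro h0
  apply hne
  have : (136048896 : Qbar) * (E⁄Qbar).Δ = 0 := by linear_combination (78732 : Qbar) * h - h0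
  rcases mul_eq_zero.mp this with h1 | h1
  · norm_num at h1
  · exact h1

lemma exists_some {P : (E⁄Qbar).Point} (hP : P ≠ 0) :
    ∃ (x y : Qbar) (h : (E⁄Qbar).Nonsingular x y), P = Affine.Point.some x y h := by
  cases P with
  | zero => exact absurd rfl hP
  | some x y h => exact ⟨x, y, h, rfl⟩

lemma X_eq_iff (P Q : (E⁄Qbar).Point) (hP : P ≠ 0) (hQ : Q ≠ 0) :
    ptX E P = ptX E Q ↔ P = Q ∨ P = -Q := by
  obtain ⟨x₁, y₁, h₁, rfl⟩ := exists_some E hP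
  obtain ⟨x₂, y₂, h₂, rfl⟩ := exists_some E hQ
  rw [ptX_some, ptX_some, ← Affine.Point.X_eq_iff (h₁ := h₁) (h₂ := h₂)]
  constructor
  · intro h
    have h36 : (36 : Qbar) ≠ 0 := by norm_num
    exact mul_left_cancel₀ h36 (add_right_cancel h)
  · intro h; rw [h]

lemma two_tors_iff (P : (E⁄Qbar).Point) (hP : P ≠ 0) :
    2 • P = 0 ↔ ptX E P ^ 3 + algebraMap ℚ Qbar (sA E) * ptX E P + algebraMap ℚ Qbar (sB E) = 0 := by
  obtain ⟨x, y, h, rfl⟩ := exists_some E hP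
  rw [ptX_some, algebraMap_sA, algebraMap_sB, short_cubic, psi2_sq_eq h.1, two_nsmul]
  constructor
  · intro h2
    by_cases hy : y = (E⁄Qbar).negY x y
    · rw [sub_eq_zero.mpr hy]; ring
    · exfalso
      obtain ⟨x', y', h', e, -⟩ := dbl_some h hy
      rw [e] at h2
      exact Affine.Point.some_ne_zero h' h2
  · intro h0
    have h1 : (y - (E⁄Qbar).negY x y) ^ 2 = 0 := by
      rcases mul_eq_zero.mp h0 with h1 | h1
      · norm_num at h1
      · exact h1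
    have hy : y = (E⁄Qbar).negY x y := sub_eq_zero.mp (pow_eq_zero_iff (two_ne_zero) |>.mp h1)
    exact Affine.Point.add_self_of_Y_eq hy

lemma dup (P : (E⁄Qbar).Point) (hP : P ≠ 0) (h2 : 2 • P ≠ 0) :
    ptX E (2 • P) * (4 * (ptX E P ^ 3 + algebraMap ℚ Qbar (sA E) * ptX E P
        + algebraMap ℚ Qbar (sB E))) =
      ptX E P ^ 4 - 2 * algebraMap ℚ Qbar (sA E) * ptX E P ^ 2
        - 8 * algebraMap ℚ Qbar (sB E) * ptX E P + algebraMap ℚ Qbar (sA E) ^ 2 := by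
  obtain ⟨x, y, h, rfl⟩ := exists_some E hP
  have hy : y ≠ (E⁄Qbar).negY x y := fun hy => h2 (by
    rw [two_nsmul]; exact Affine.Point.add_self_of_Y_eq hy)
  obtain ⟨x', y', h', e, hd⟩ := dbl_some h hy
  rw [two_nsmul, e, ptX_some, ptX_some, algebraMap_sA, algebraMap_sB, short_cubic, short_dup_num]
  linear_combination (1679616 : Qbar) * hd

lemma surj (hΔ : E.Δ ≠ 0) (ξ : Qbar) : ∃ P : (E⁄Qbar).Point, P ≠ 0 ∧ ptX E P = ξ := by
  obtain ⟨x, hx⟩ : ∃ x : Qbar, x = (ξ - 3 * (E⁄Qbar).b₂) / 36 := ⟨_, rfl⟩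
  obtain ⟨s, hs⟩ := IsAlgClosed.exists_pow_nat_eq
    (4 * x ^ 3 + (E⁄Qbar).b₂ * x ^ 2 + 2 * (E⁄Qbar).b₄ * x + (E⁄Qbar).b₆) (n := 2) (by norm_num)
  obtain ⟨y, hy⟩ : ∃ y : Qbar, y = (s - (E⁄Qbar).a₁ * x - (E⁄Qbar).a₃) / 2 := ⟨_, rfl⟩
  have heq : (E⁄Qbar).Equation x y := by
    rw [Affine.equation_iff]
    have hs' : (2 * y + (E⁄Qbar).a₁ * x + (E⁄Qbar).a₃) ^ 2 =
        4 * x ^ 3 + (E⁄Qbar).b₂ * x ^ 2 + 2 * (E⁄Qbar).b₄ * x + (E⁄Qbar).b₆ := by
      rw [← hs, hy]; ring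
    simp only [b₂, b₄, b₆] at hs'
    linear_combination (1 / 4 : Qbar) * hs'
  have hns : (E⁄Qbar).Nonsingular x y :=
    ((E⁄Qbar).equation_iff_nonsingular_of_Δ_ne_zero (bc_Δ_ne_zero E hΔ)).mp heq
  refine ⟨Affine.Point.some x y hns, Affine.Point.some_ne_zero hns, ?_⟩
  rw [ptX_some, hx]
  ring

end Main

end CurveDupAux

open CurveDupAux in
/-- T-inst: the duplication data of `E` over `ℚ̄`. -/
noncomputable def curveDupData (E : WeierstrassCurve ℚ) (hΔ : E.Δ ≠ 0) :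
    DupData (AlgebraicClosure ℚ) (E⁄(AlgebraicClosure ℚ)).Point where
  A := algebraMap ℚ (AlgebraicClosure ℚ) (sA E)
  B := algebraMap ℚ (AlgebraicClosure ℚ) (sB E)
  X := ptX E
  disc_ne := disc_ne E hΔ
  X_eq_iff := X_eq_iff E
  two_tors_iff := two_tors_iff E
  dup := dup E
  surj := surj E hΔ

/-- Galois equivariance of the normalised `x`-coordinate. -/
theorem ptX_smul (E : WeierstrassCurve ℚ)
    (σ : AlgebraicClosure ℚ ≃ₐ[ℚ] AlgebraicClosure ℚ) (P : (E⁄(AlgebraicClosure ℚ)).Point) :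
    ptX E (σ • P) = σ (ptX E P) := by
  cases P with
  | zero => exact (map_zero σ).symm
  | some x y h =>
    change 36 * σ x + 3 * algebraMap ℚ (AlgebraicClosure ℚ) E.b₂
      = σ (36 * x + 3 * algebraMap ℚ (AlgebraicClosure ℚ) E.b₂)
    rw [map_add, map_mul, map_mul, map_ofNat, map_ofNat, AlgEquiv.commutes]

end Fermat.Agent.S51
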