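import Mathlib

set_option autoImplicit false

namespace Fermat.Agent.S51

set_option maxHeartbeats 4000000 in
theorem key_identity_aux (A x u v : ℚ)
    (h1 : 3*x^4 + 6*A*x^2 + 12*((-u^3+6*u*v+2*A*u)/4)*x - A^2 = 0)
    (h3 : A^2 - 2*A*v + 5*v^2 - u^2*v + 4*u*((-u^3+6*u*v+2*A*u)/4) = 0) :
    (u^2-4*v)^5*((u^2-4*v)+9*(x^2+u*x+v))*(x^3+A*x+((-u^3+6*u*v+2*A*u)/4))^4
      - 5*(u^2-4*v)^3*(x^2+u*x+v)^3*(x^3+A*x+((-u^3+6*u*v+2*A*u)/4))^2*(4*A^3+27*((-u^3+6*u*v+2*A*u)/4)^2)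
      - ((x^2+u*x+v)-(u^2-4*v))*(x^2+u*x+v)^5*(4*A^3+27*((-u^3+6*u*v+2*A*u)/4)^2)^2 = 0 := by
  linear_combination ((209/2)*A^5*u^10 - 2090*A^5*u^8*v + 16720*A^5*u^6*v^2 - 66880*A^5*u^4*v^3 + 133760*A^5*u^2*v^4 - 107008*A^5*v^5 - (209/4)*A^4*x^2*u^10 + 1045*A^4*x^2*u^8*v - 8360*A^4*x^2*u^6*v^2 + 33440*A^4*x^2*u^4*v^3 - 66880*A^4*x^2*u^2*v^4 + 53504*A^4*x^2*v^5 - (881/4)*A^4*x*u^11 + 4405*A^4*x*u^9*v - 35240*A^4*x*u^7*v^2 + 140960*A^4*x*u^5*v^3 - 281920*A^4*x*u^3*v^4 + 225536*A^4*x*u*v^5 - (1787/16)*A^4*u^12 + (7723/4)*A^4*u^10*v - 11810*A^4*u^8*v^2 + 23000*A^4*u^6*v^3 + 50960*A^4*u^4*v^4 - 273472*A^4*u^2*v^5 + 310272*A^4*v^6 + (209/8)*A^3*x^4*u^10 - (1045/2)*A^3*x^4*u^8*v + 4180*A^3*x^4*u^6*v^2 - 16720*A^3*x^4*u^4*v^3 + 33440*A^3*x^4*u^2*v^4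 - 26752*A^3*x^4*v^5 + 84*A^3*x^3*u^11 - 1680*A^3*x^3*u^9*v + 13440*A^3*x^3*u^7*v^2 - 53760*A^3*x^3*u^5*v^3 + 107520*A^3*x^3*u^3*v^4 - 86016*A^3*x^3*u*v^5 - (3539/96)*A^3*x^2*u^12 + (1795/2)*A^3*x^2*u^10*v - (18205/2)*A^3*x^2*u^8*v^2 + (147680/3)*A^3*x^2*u^6*v^3 - 149720*A^3*x^2*u^4*v^4 + 242816*A^3*x^2*u^2*v^5 - (492160/3)*A^3*x^2*v^6 - (45991/96)*A^3*x*u^13 + (39827/4)*A^3*x*u^11*v - (168315/2)*A^3*x*u^9*v^2 + (1099960/3)*A^3*x*u^7*v^3 - 853400*A^3*x*u^5*v^4 + 970944*A^3*x*u^3*v^5 - (1152896/3)*A^3*x*u*v^6 - (14017/18)*A^3*u^14 + (4560787/288)*A^3*u^12*v - (3100771/24)*A^3*u^10*v^2 + (4748920/9)*A^3*u^8*v^3 - (9571780/9)*A^3*u^6*v^4 + (2188808/3)*A^3*u^4*v^5 + (4837216/9)*A^3*u^2*v^6 - (5798656/9)*A^3*v^7 - (209/16)*A^2*x^6*u^10 + (1045/4)*A^2*x^6*u^8*v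 - 2090*A^2*x^6*u^6*v^2 + 8360*A^2*x^6*u^4*v^3 - 16720*A^2*x^6*u^2*v^4 + 13376*A^2*x^6*v^5 - (463/16)*A^2*x^5*u^11 + (2315/4)*A^2*x^5*u^9*v - 4630*A^2*x^5*u^7*v^2 + 18520*A^2*x^5*u^5*v^3 - 37040*A^2*x^5*u^3*v^4 + 29632*A^2*x^5*u*v^5 + (9931/192)*A^2*x^4*u^12 - (17903/16)*A^2*x^4*u^10*v + 9965*A^2*x^4*u^8*v^2 - (139850/3)*A^2*x^4*u^6*v^3 + 120260*A^2*x^4*u^4*v^4 - 161072*A^2*x^4*u^2*v^5 + (259456/3)*A^2*x^4*v^6 + (10105/48)*A^2*x^3*u^13 - (35213/8)*A^2*x^3*u^11*v + (75015/2)*A^2*x^3*u^9*v^2 - (495980/3)*A^2*x^3*u^7*v^3 + 391840*A^2*x^3*u^5*v^4 - 460320*A^2*x^3*u^3*v^5 + (587392/3)*A^2*x^3*u*v^6 + (13309/64)*A^2*x^2*u^14 - (103849/24)*A^2*x^2*u^12*v + (580281/16)*A^2*x^2*u^10*v^2 - (610705/4)*A^2*x^2*u^8*v^3 + (946090/3)*A^2*x^2*u^6*v^4 - 194664*A^2*x^2*u^4*v^5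 - 294576*A^2*x^2*u^2*v^6 + (1119808/3)*A^2*x^2*v^7 + (3917/32)*A^2*x*u^15 - (336065/96)*A^2*x*u^13*v + (637541/16)*A^2*x*u^11*v^2 - (923815/4)*A^2*x*u^9*v^3 + (2111870/3)*A^2*x*u^7*v^4 - 967184*A^2*x*u^5*v^5 + 66960*A^2*x*u^3*v^6 + (2426048/3)*A^2*x*u*v^7 + (46969/192)*A^2*u^16 - (754697/96)*A^2*u^14*v + (18780341/192)*A^2*u^12*v^2 - (29652863/48)*A^2*u^10*v^3 + (6317270/3)*A^2*u^8*v^4 - (10923574/3)*A^2*u^6*v^5 + (6906964/3)*A^2*u^4*v^6 + (1187024/3)*A^2*u^2*v^7 + (778112/3)*A^2*v^8 + (209/32)*A*x^8*u^10 - (1045/8)*A*x^8*u^8*v + 1045*A*x^8*u^6*v^2 - 4180*A*x^8*u^4*v^3 + 8360*A*x^8*u^2*v^4 - 6688*A*x^8*v^5 + (127/16)*A*x^7*u^11 - (635/4)*A*x^7*u^9*v + 1270*A*x^7*u^7*v^2 - 5080*A*x^7*u^5*v^3 + 10160*A*x^7*u^3*v^4 - 8128*A*x^7*u*v^5 - (4605/128)*A*x^6*u^12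 + (12223/16)*A*x^6*u^10*v - (53155/8)*A*x^6*u^8*v^2 + 30130*A*x^6*u^6*v^3 - 74470*A*x^6*u^4*v^4 + 93680*A*x^6*u^2*v^5 - 45472*A*x^6*v^6 - (10043/128)*A*x^5*u^13 + (6649/4)*A*x^5*u^11*v - (115315/8)*A*x^5*u^9*v^2 + 65100*A*x^5*u^7*v^3 - 159970*A*x^5*u^5*v^4 + 199424*A*x^5*u^3*v^5 - 95264*A*x^5*u*v^6 - (11585/384)*A*x^4*u^14 + (255455/384)*A*x^4*u^12*v - (46851/8)*A*x^4*u^10*v^2 + (601135/24)*A*x^4*u^8*v^3 - (134810/3)*A*x^4*u^6*v^4 - 23010*A*x^4*u^4*v^5 + (608480/3)*A*x^4*u^2*v^6 - (638816/3)*A*x^4*v^7 + (6205/384)*A*x^3*u^15 - (17129/192)*A*x^3*u^13*v - (25575/16)*A*x^3*u^11*v^2 + (103105/6)*A*x^3*u^9*v^3 - (149360/3)*A*x^3*u^7*v^4 - 34140*A*x^3*u^5*v^5 + (1183664/3)*A*x^3*u^3*v^6 - (1521920/3)*A*x^3*u*v^7 - (2791/192)*A*x^2*u^16 + (278843/384)*A*x^2*u^14*v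 - (1360131/128)*A*x^2*u^12*v^2 + (3411437/48)*A*x^2*u^10*v^3 - (5694655/24)*A*x^2*u^8*v^4 + 353532*A*x^2*u^6*v^5 - (281134/3)*A*x^2*u^4*v^6 - (231536/3)*A*x^2*u^2*v^7 - 272736*A*x^2*v^8 + (121/192)*A*x*u^17 + (9235/96)*A*x*u^15*v - (312975/128)*A*x*u^13*v^2 + (569369/24)*A*x*u^11*v^3 - (2746145/24)*A*x*u^9*v^4 + 266648*A*x*u^7*v^5 - (450110/3)*A*x*u^5*v^6 - (1472800/3)*A*x*u^3*v^7 + 695776*A*x*u*v^8 + (14279/1152)*A*u^18 + (24941/192)*A*u^16*v - (282551/32)*A*u^14*v^2 + (14538059/128)*A*u^12*v^3 - (63940715/96)*A*u^10*v^4 + 1913617*A*u^8*v^5 - (6090091/3)*A*u^6*v^6 - (4655614/3)*A*u^4*v^7 + 3514968*A*u^2*v^8 + (4735040/9)*A*v^9 + 3*x^10*u^10 - 60*x^10*u^8*v + 480*x^10*u^6*v^2 - 1920*x^10*u^4*v^3 + 3840*x^10*u^2*v^4 - 3072*x^10*v^5 + 3*x^9*u^11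 - 60*x^9*u^9*v + 480*x^9*u^7*v^2 - 1920*x^9*u^5*v^3 + 3840*x^9*u^3*v^4 - 3072*x^9*u*v^5 - (123/256)*x^8*u^12 + (255/16)*x^8*u^10*v - (3255/16)*x^8*u^8*v^2 + 1320*x^8*u^6*v^3 - 4665*x^8*u^4*v^4 + 8592*x^8*u^2*v^5 - 6480*x^8*v^6 - (345/128)*x^7*u^13 + (555/8)*x^7*u^11*v - (5925/8)*x^7*u^9*v^2 + 4200*x^7*u^7*v^3 - 13350*x^7*u^5*v^4 + 22560*x^7*u^3*v^5 - 15840*x^7*u*v^6 + (2107/128)*x^6*u^14 - (52735/128)*x^6*u^12*v + (8415/2)*x^6*u^10*v^2 - (177155/8)*x^6*u^8*v^3 + 60970*x^6*u^6*v^4 - 70506*x^6*u^4*v^5 - 19840*x^6*u^2*v^6 + 83680*x^6*v^7 + (1199/32)*x^5*u^15 - (60205/64)*x^5*u^13*v + (38625/4)*x^5*u^11*v^2 - (205145/4)*x^5*u^9*v^3 + 143960*x^5*u^7*v^4 - 177468*x^5*u^5*v^5 - 15680*x^5*u^3*v^6 + 169280*x^5*u*v^7 + (625/384)*x^4*u^16 - (769/192)*x^4*u^14*v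 - (96319/192)*x^4*u^12*v^2 + (85925/12)*x^4*u^10*v^3 - (516055/12)*x^4*u^8*v^4 + (381260/3)*x^4*u^6*v^5 - (460276/3)*x^4*u^4*v^6 - (135616/3)*x^4*u^2*v^7 + (578240/3)*x^4*v^8 - (9361/192)*x^3*u^17 + (240983/192)*x^3*u^15*v - (5122523/384)*x^3*u^13*v^2 + (1790575/24)*x^3*u^11*v^3 - (5480255/24)*x^3*u^9*v^4 + (1024076/3)*x^3*u^7*v^5 - (291538/3)*x^3*u^5*v^6 - (855136/3)*x^3*u^3*v^7 + (533600/3)*x^3*u*v^8 - (19589/768)*x^2*u^18 + (50893/96)*x^2*u^16*v - (367001/96)*x^2*u^14*v^2 + (2662525/384)*x^2*u^12*v^3 + (1162405/24)*x^2*u^10*v^4 - (6683207/24)*x^2*u^8*v^5 + (1380704/3)*x^2*u^6*v^6 + (119102/3)*x^2*u^4*v^7 - (1641760/3)*x^2*u^2*v^8 - (94880/3)*x^2*v^9 + (7399/384)*x*u^19 - (223519/384)*x*u^17*v + (2782457/384)*x*u^15*v^2 - (4511545/96)*x*u^13*v^3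 + (3847865/24)*x*u^11*v^4 - (1283209/6)*x*u^9*v^5 - (753818/3)*x*u^7*v^6 + (2921704/3)*x*u^5*v^7 - (862880/3)*x*u^3*v^8 - (2715520/3)*x*u*v^9 + (23615/2304)*u^20 - (184219/1152)*u^18*v + (78667/768)*u^16*v^2 + (5126725/384)*u^14*v^3 - (29768625/256)*u^12*v^4 + (20903245/48)*u^10*v^5 - (11628757/16)*u^8*v^6 + (496862/3)*u^6*v^7 + (2559775/3)*u^4*v^8 - (4125680/9)*u^2*v^9 - (2489200/9)*v^10) * h1 + ((209/2)*A^5*u^10 - 2090*A^5*u^8*v + 16720*A^5*u^6*v^2 - 66880*A^5*u^4*v^3 + 133760*A^5*u^2*v^4 - 107008*A^5*v^5 - 16*A^4*x^12 - 96*A^4*x^11*u - 224*A^4*x^10*u^2 - 160*A^4*x^10*v - 240*A^4*x^9*u^3 - 800*A^4*x^9*u*v - 80*A^4*x^8*u^4 - 1520*A^4*x^8*u^2*v - 560*A^4*x^8*v^2 + 64*A^4*x^7*u^5 - 1280*A^4*x^7*u^3*v - 2240*A^4*x^7*u*v^2 + 64*A^4*x^6*u^6 - 320*A^4*x^6*u^4*v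 - 3200*A^4*x^6*u^2*v^2 - 960*A^4*x^6*v^3 + 16*A^4*x^5*u^7 + 160*A^4*x^5*u^5*v - 1760*A^4*x^5*u^3*v^2 - 2880*A^4*x^5*u*v^3 + 80*A^4*x^4*u^6*v - 80*A^4*x^4*u^4*v^2 - 2720*A^4*x^4*u^2*v^3 - 880*A^4*x^4*v^4 + 160*A^4*x^3*u^5*v^2 - 640*A^4*x^3*u^3*v^3 - 1760*A^4*x^3*u*v^4 - (2717/4)*A^4*x^2*u^10 + 13585*A^4*x^2*u^8*v - 108680*A^4*x^2*u^6*v^2 + 434880*A^4*x^2*u^4*v^3 - 870240*A^4*x^2*u^2*v^4 + 695136*A^4*x^2*v^5 - (3389/4)*A^4*x*u^11 + 16945*A^4*x*u^9*v - 135560*A^4*x*u^7*v^2 + 542240*A^4*x*u^5*v^3 - 1084400*A^4*x*u^3*v^4 + 867168*A^4*x*u*v^5 - (5131/16)*A^4*u^12 + (25279/4)*A^4*u^10*v - 49430*A^4*u^8*v^2 + 190200*A^4*u^6*v^3 - 350320*A^4*u^4*v^4 + 208080*A^4*u^2*v^5 + 96176*A^4*v^6 - 22*A^3*x^12*u^2 - 32*A^3*x^12*v - 132*A^3*x^11*u^3 - 192*A^3*x^11*u*v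 - 308*A^3*x^10*u^4 - 668*A^3*x^10*u^2*v - 320*A^3*x^10*v^2 - 330*A^3*x^9*u^5 - 1580*A^3*x^9*u^3*v - 1600*A^3*x^9*u*v^2 - 130*A^3*x^8*u^6 - 2010*A^3*x^8*u^4*v - 4770*A^3*x^8*u^2*v^2 + 160*A^3*x^8*v^3 + 8*A^3*x^7*u^7 - 672*A^3*x^7*u^5*v - 9480*A^3*x^7*u^3*v^2 + 640*A^3*x^7*u*v^3 - 37*A^3*x^6*u^8 + 1128*A^3*x^6*u^6*v - 10320*A^3*x^6*u^4*v^2 - 2600*A^3*x^6*u^2*v^3 + 1920*A^3*x^6*v^4 - 73*A^3*x^5*u^9 + 1212*A^3*x^5*u^7*v - 4500*A^3*x^5*u^5*v^2 - 10040*A^3*x^5*u^3*v^3 + 5760*A^3*x^5*u*v^4 - (71/8)*A^3*x^4*u^10 - (375/2)*A^3*x^4*u^8*v + 4830*A^3*x^4*u^6*v^2 - 27020*A^3*x^4*u^4*v^3 + 36390*A^3*x^4*u^2*v^4 - 24672*A^3*x^4*v^5 + 1714*A^3*x^3*u^11 - 34410*A^3*x^3*u^9*v + 275980*A^3*x^3*u^7*v^2 - 1103280*A^3*x^3*u^5*v^3 + 2196620*A^3*x^3*u^3*v^4 - 1756096*A^3*x^3*u*v^5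 + (318073/96)*A^3*x^2*u^12 - (131321/2)*A^3*x^2*u^10*v + (1035665/2)*A^3*x^2*u^8*v^2 - (6062860/3)*A^3*x^2*u^6*v^3 + 3841180*A^3*x^2*u^4*v^4 - 2597884*A^3*x^2*u^2*v^5 - (1902400/3)*A^3*x^2*v^6 + (211109/96)*A^3*x*u^13 - (181453/4)*A^3*x*u^11*v + (758955/2)*A^3*x*u^9*v^2 - (4885160/3)*A^3*x*u^7*v^3 + 3699030*A^3*x*u^5*v^4 - 4021468*A^3*x*u^3*v^5 + (4247488/3)*A^3*x*u*v^6 - (2365/72)*A^3*u^14 - (16505/288)*A^3*u^12*v + (214757/24)*A^3*u^10*v^2 - (824735/9)*A^3*u^8*v^3 + (3619160/9)*A^3*u^6*v^4 - (2486374/3)*A^3*u^4*v^5 + (5648098/9)*A^3*u^2*v^6 + (747872/9)*A^3*v^7 + (583/16)*A^2*x^12*u^4 - 224*A^2*x^12*u^2*v + 16*A^2*x^12*v^2 + (1749/8)*A^2*x^11*u^5 - 1344*A^2*x^11*u^3*v + 96*A^2*x^11*u*v^2 + (3761/8)*A^2*x^10*u^6 - (18333/8)*A^2*x^10*u^4*v -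 3936*A^2*x^10*u^2*v^2 + 2720*A^2*x^10*v^3 + (6505/16)*A^2*x^9*u^7 + (1135/8)*A^2*x^9*u^5*v - 17680*A^2*x^9*u^3*v^2 + 9760*A^2*x^9*u*v^3 + (135/16)*A^2*x^8*u^8 + (68265/16)*A^2*x^8*u^6*v - (421515/16)*A^2*x^8*u^4*v^2 - 2880*A^2*x^8*u^2*v^3 + 10800*A^2*x^8*v^4 - (843/4)*A^2*x^7*u^9 + 4071*A^2*x^7*u^7*v - (39051/4)*A^2*x^7*u^5*v^2 - 50880*A^2*x^7*u^3*v^3 + 35520*A^2*x^7*u*v^4 - (383/4)*A^2*x^6*u^10 + 376*A^2*x^6*u^8*v + (25247/2)*A^2*x^6*u^6*v^2 - (291895/4)*A^2*x^6*u^4*v^3 + 16640*A^2*x^6*u^2*v^4 + 20480*A^2*x^6*v^5 + (581/16)*A^2*x^5*u^11 - (11453/8)*A^2*x^5*u^9*v + (111937/8)*A^2*x^5*u^7*v^2 - (135845/4)*A^2*x^5*u^5*v^3 - 47840*A^2*x^5*u^3*v^4 + 50944*A^2*x^5*u*v^5 + (23071/192)*A^2*x^4*u^12 - (39383/16)*A^2*x^4*u^10*v + (291515/16)*A^2*x^4*u^8*v^2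 - (1381015/24)*A^2*x^4*u^6*v^3 + (1402625/16)*A^2*x^4*u^4*v^4 - 148832*A^2*x^4*u^2*v^5 + (277456/3)*A^2*x^4*v^6 - (6289/24)*A^2*x^3*u^13 + (25303/4)*A^2*x^3*u^11*v - (510095/8)*A^2*x^3*u^9*v^2 + (2041265/6)*A^2*x^3*u^7*v^3 - (7994815/8)*A^2*x^3*u^5*v^4 + 1520064*A^2*x^3*u^3*v^5 - (2933984/3)*A^2*x^3*u*v^6 - (13135/64)*A^2*x^2*u^14 + (618733/48)*A^2*x^2*u^12*v - (831789/4)*A^2*x^2*u^10*v^2 + (12198075/8)*A^2*x^2*u^8*v^3 - (138918355/24)*A^2*x^2*u^6*v^4 + (88692699/8)*A^2*x^2*u^4*v^5 - 8321888*A^2*x^2*u^2*v^6 - (1514720/3)*A^2*x^2*v^7 - (75323/96)*A^2*x*u^15 + (818325/32)*A^2*x*u^13*v - 320765*A^2*x*u^11*v^2 + (24425435/12)*A^2*x*u^9*v^3 - (111169315/16)*A^2*x*u^7*v^4 + (95490715/8)*A^2*x*u^5*v^5 - (21298672/3)*A^2*x*u^3*v^6 - 2410784*A^2*x*u*v^7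 - (5933/576)*A^2*u^16 + (31607/288)*A^2*u^14*v + (219847/576)*A^2*u^12*v^2 - (390215/36)*A^2*u^10*v^3 + (2302045/36)*A^2*u^8*v^4 - (24501359/144)*A^2*u^6*v^5 + (28196347/144)*A^2*u^4*v^6 - (327296/9)*A^2*u^2*v^7 - (497840/9)*A^2*v^8 - (149/4)*A*x^12*u^6 + (3633/8)*A*x^12*u^4*v - 1656*A*x^12*u^2*v^2 + 1472*A*x^12*v^3 - (327/2)*A*x^11*u^7 + (8019/4)*A*x^11*u^5*v - 7056*A*x^11*u^3*v^2 + 4992*A*x^11*u*v^3 - 289*A*x^10*u^8 + (13021/4)*A*x^10*u^6*v - (32811/4)*A*x^10*u^4*v^2 - 7952*A*x^10*u^2*v^3 + 10880*A*x^10*v^4 - 225*A*x^9*u^9 + (11875/8)*A*x^9*u^7*v + (29625/4)*A*x^9*u^5*v^2 - 56160*A*x^9*u^3*v^3 + 39040*A*x^9*u*v^4 + (1401/32)*A*x^8*u^10 - (12165/4)*A*x^8*u^8*v + (270825/8)*A*x^8*u^6*v^2 - (916845/8)*A*x^8*u^4*v^3 + 71520*A*x^8*u^2*v^4 - 18912*A*x^8*v^5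 + (3681/16)*A*x^7*u^11 - (20841/4)*A*x^7*u^9*v + 38409*A*x^7*u^7*v^2 - (189981/2)*A*x^7*u^5*v^3 + 17520*A*x^7*u^3*v^4 - 17088*A*x^7*u*v^5 + (14323/128)*A*x^6*u^12 - (28083/16)*A*x^6*u^10*v + (38457/8)*A*x^6*u^8*v^2 + 39632*A*x^6*u^6*v^3 - (395085/2)*A*x^6*u^4*v^4 + 135792*A*x^6*u^2*v^5 - 60064*A*x^6*v^6 - (12619/128)*A*x^5*u^13 + (21069/8)*A*x^5*u^11*v - (228837/8)*A*x^5*u^9*v^2 + (602587/4)*A*x^5*u^7*v^3 - (726615/2)*A*x^5*u^5*v^4 + 312576*A*x^5*u^3*v^5 - 155936*A*x^5*u*v^6 - (45905/384)*A*x^4*u^14 + (1066895/384)*A*x^4*u^12*v - (206201/8)*A*x^4*u^10*v^2 + (1397645/12)*A*x^4*u^8*v^3 - (1465825/6)*A*x^4*u^6*v^4 + (1288055/8)*A*x^4*u^4*v^5 + (219560/3)*A*x^4*u^2*v^6 - (634016/3)*A*x^4*v^7 + (20015/128)*A*x^3*u^15 - (346275/64)*A*x^3*u^13*v + (1103067/16)*A*x^3*u^11*v^2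 - (1717875/4)*A*x^3*u^9*v^3 + (2720895/2)*A*x^3*u^7*v^4 - (7236585/4)*A*x^3*u^5*v^5 - 339040*A*x^3*u^3*v^6 + 2151552*A*x^3*u*v^7 + (11593/192)*A*x^2*u^16 - (285061/384)*A*x^2*u^14*v - (35449/384)*A*x^2*u^12*v^2 + (2150059/48)*A*x^2*u^10*v^3 - (7006045/24)*A*x^2*u^8*v^4 + (9681661/12)*A*x^2*u^6*v^5 - (11212961/12)*A*x^2*u^4*v^6 + (309184/3)*A*x^2*u^2*v^7 + (995680/3)*A*x^2*v^8 - (7087/192)*A*x*u^17 - (7619/32)*A*x*u^15*v + (9836867/384)*A*x*u^13*v^2 - (8911949/24)*A*x*u^11*v^3 + (19788565/8)*A*x*u^9*v^4 - (208896643/24)*A*x*u^7*v^5 + (187454543/12)*A*x*u^5*v^6 - 10829248*A*x*u^3*v^7 - (3491552/3)*A*x*u*v^8 + (3/128)*A*u^18 - (41/64)*A*u^16*v + (213/32)*A*u^14*v^2 - (3909/128)*A*u^12*v^3 + (1315/32)*A*u^10*v^4 + (423/4)*A*u^8*v^5 - (1755/8)*A*u^6*v^6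 - (1755/8)*A*u^4*v^7 + (283/32)*x^12*u^8 - (2621/16)*x^12*u^6*v + (17499/16)*x^12*u^4*v^2 - 3056*x^12*u^2*v^3 + 2864*x^12*v^4 + (549/16)*x^11*u^9 - (5103/8)*x^11*u^7*v + (33777/8)*x^11*u^5*v^2 - 11376*x^11*u^3*v^3 + 9504*x^11*u*v^4 + (1833/16)*x^10*u^10 - (34779/16)*x^10*u^8*v + (30837/2)*x^10*u^6*v^2 - (398937/8)*x^10*u^4*v^3 + 73776*x^10*u^2*v^4 - 50208*x^10*v^5 + (5177/32)*x^9*u^11 - (11995/4)*x^9*u^9*v + (332475/16)*x^9*u^7*v^2 - (529085/8)*x^9*u^5*v^3 + 101440*x^9*u^3*v^4 - 84384*x^9*u*v^5 + (2861/256)*x^8*u^12 + (7329/32)*x^8*u^10*v - (221205/32)*x^8*u^8*v^2 + (423895/8)*x^8*u^6*v^3 - (2572575/16)*x^8*u^4*v^4 + 186576*x^8*u^2*v^5 - 115648*x^8*v^6 - (28553/128)*x^7*u^13 + (10317/2)*x^7*u^11*v - (194739/4)*x^7*u^9*v^2 + (937901/4)*x^7*u^7*v^3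 - (2356359/4)*x^7*u^5*v^4 + 722400*x^7*u^3*v^5 - 407968*x^7*u*v^6 - (26161/128)*x^6*u^14 + (574433/128)*x^6*u^12*v - (637335/16)*x^6*u^10*v^2 + 179224*x^6*u^8*v^3 - (1683509/4)*x^6*u^6*v^4 + (1989261/4)*x^6*u^4*v^5 - 309968*x^6*u^2*v^6 + 18976*x^6*v^7 + (1671/32)*x^5*u^15 - (95677/64)*x^5*u^13*v + (286917/16)*x^5*u^11*v^2 - (920337/8)*x^5*u^9*v^3 + (3299323/8)*x^5*u^7*v^4 - (3091857/4)*x^5*u^5*v^5 + 611856*x^5*u^3*v^6 - 150784*x^5*u*v^7 + (68797/384)*x^4*u^16 - (829033/192)*x^4*u^14*v + (8397779/192)*x^4*u^12*v^2 - (5740145/24)*x^4*u^10*v^3 + (72037645/96)*x^4*u^8*v^4 - (63237031/48)*x^4*u^6*v^5 + (56692583/48)*x^4*u^4*v^6 - (1593664/3)*x^4*u^2*v^7 + (497840/3)*x^4*v^8 + (4935/64)*x^3*u^17 - (107639/64)*x^3*u^15*v + (1684935/128)*x^3*u^13*v^2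 - (64603/2)*x^3*u^11*v^3 - (2026815/16)*x^3*u^9*v^4 + (7939305/8)*x^3*u^7*v^5 - (18443843/8)*x^3*u^5*v^6 + 1835120*x^3*u^3*v^7 + 113856*x^3*u*v^8 - (14807/256)*x^2*u^18 + 1807*x^2*u^16*v - (376881/16)*x^2*u^14*v^2 + (20966495/128)*x^2*u^12*v^3 - (5070517/8)*x^2*u^10*v^4 + (19353297/16)*x^2*u^8*v^5 - (1102031/4)*x^2*u^6*v^6 - (22148401/8)*x^2*u^4*v^7 + 3258624*x^2*u^2*v^8 - (11821/384)*x*u^19 + (196553/384)*x*u^17*v - (310603/384)*x*u^15*v^2 - (3783457/96)*x*u^13*v^3 + (37101401/96)*x*u^11*v^4 - (19913735/12)*x*u^9*v^5 + (175161733/48)*x*u^7*v^6 - (87325507/24)*x*u^5*v^7 + (1465936/3)*x*u^3*v^8 + 995680*x*u*v^9 - (1/256)*u^20 + (17/128)*u^18*v - (471/256)*u^16*v^2 + (1667/128)*u^14*v^3 - (12001/256)*u^12*v^4 + (1965/32)*u^10*v^5 + (2295/32)*u^8*v^6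 - (675/4)*u^6*v^7 - (2025/16)*u^4*v^8) * h3

end Fermat.Agent.S51
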